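import Fermat.Agent.H87.SS2.Val3TableDefs
import Fermat.Agent.H88.KL.ValBasic

/-!
# P-SS2 (S36), TABLE: integer valued `ord` functions and `1`-units of discrete valuation
subrings (helper87)

* `ordAt V t x` : the integer `n` with `x = unit · t ^ n` (for `V` a principal valuation subring
  with uniformiser `t`, `x ≠ 0`);
* lemmas on `VUnit`, on `1`-units (`x - 1 ∈ V.nonunits`) and on `ValuationSubring.comap`.
-/

set_option autoImplicit false

namespace Fermat.Agent.H87.SS2

open Fermat.Agent.H11.SS2 Fermat.Agent.H88.KLB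

section basic

variable {L : Type} [Field L] {V : ValuationSubring L}

theorem vUnit_iff_valuation {x : L} (hx : x ≠ 0) : VUnit V x ↔ V.valuation x = 1 :=
  ((presents_valuation V).val_eq_one_iff hx).symm

theorem vUnit_one : VUnit V (1 : L) := ⟨V.one_mem, by rw [inv_one]; exact V.one_mem⟩

theorem vUnit_mul {x y : L} (hx : VUnit V x) (hy : VUnit V y) : VUnit V (x * y) :=
  ⟨V.mul_mem _ _ hx.1 hy.1, by rw [mul_inv]; exact V.mul_mem _ _ hx.2 hy.2⟩

theorem vUnit_inv {x : L} (hx : VUnit V x) : VUnit V x⁻¹ := ⟨hx.2, by rw [inv_inv]; exact hx.1⟩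

theorem vUnit_div {x y : L} (hx : VUnit V x) (hy : VUnit V y) : VUnit V (x / y) := by
  rw [div_eq_mul_inv]
  exact vUnit_mul hx (vUnit_inv hy)

theorem vUnit_pow {x : L} (hx : VUnit V x) (n : ℕ) : VUnit V (x ^ n) :=
  ⟨V.pow_mem hx.1 n, by rw [← inv_pow]; exact V.pow_mem hx.2 n⟩

theorem vUnit_zpow {x : L} (hx : VUnit V x) (n : ℤ) : VUnit V (x ^ n) := by
  cases n with
  | ofNat n => simpa using vUnit_pow hx n
  | negSucc n => simpa using vUnit_inv (vUnit_pow hx (n + 1))

theorem mem_nonunits_iff_valuation {x : L} : x ∈ V.nonunits ↔ V.valuation x < 1 :=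
  V.mem_nonunits_iff

theorem nonunits_mul_mem {x y : L} (hx : x ∈ V.nonunits) (hy : y ∈ V) : x * y ∈ V.nonunits := by
  rw [mem_nonunits_iff_valuation] at hx ⊢
  rw [map_mul]
  exact mul_lt_one_of_lt_of_le hx ((V.valuation_le_one_iff y).mpr hy)

theorem nonunits_add_mem {x y : L} (hx : x ∈ V.nonunits) (hy : y ∈ V.nonunits) :
    x + y ∈ V.nonunits := by
  rw [mem_nonunits_iff_valuation] at hx hy ⊢
  exact lt_of_le_of_lt (Valuation.map_add _ _ _) (max_lt hx hy)

theorem nonunits_neg_mem {x : L} (hx : x ∈ V.nonunits) : -x ∈ V.nonunits := by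
  rw [mem_nonunits_iff_valuation] at hx ⊢
  rwa [Valuation.map_neg]

theorem nonunits_sub_mem {x y : L} (hx : x ∈ V.nonunits) (hy : y ∈ V.nonunits) :
    x - y ∈ V.nonunits := by
  rw [sub_eq_add_neg]
  exact nonunits_add_mem hx (nonunits_neg_mem hy)

theorem nonunits_mem {x : L} (hx : x ∈ V.nonunits) : x ∈ V :=
  (V.valuation_le_one_iff x).mp (mem_nonunits_iff_valuation.mp hx).le

/-- `a ≡ b` modulo the maximal ideal and `b` a unit: then `a` is a unit. -/
theorem valuation_eq_one_of_sub_mem {a b : L} (hb : V.valuation b = 1)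
    (h : a - b ∈ V.nonunits) : V.valuation a = 1 := by
  rw [mem_nonunits_iff_valuation] at h
  have e : a = b + (a - b) := by ring
  rw [e, ← hb]
  exact Valuation.map_add_eq_of_lt_left _ (by rw [hb]; exact h)

/-- `a ≡ b` modulo the maximal ideal and `b` a unit: then `a / b` is a `1`-unit. -/
theorem div_sub_one_mem {a b : L} (hb : V.valuation b = 1) (h : a - b ∈ V.nonunits) :
    a / b - 1 ∈ V.nonunits := by
  have hb0 : b ≠ 0 := by
    rintro rfl
    simp at hb
  have e : a / b - 1 = (a - b) * b⁻¹ := by field_simp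
  rw [e]
  refine nonunits_mul_mem h ?_
  rw [← V.valuation_le_one_iff, map_inv₀, hb, inv_one]

/-- Conversely. -/
theorem sub_mem_of_div_sub_one_mem {a b : L} (hb : V.valuation b = 1)
    (h : a / b - 1 ∈ V.nonunits) : a - b ∈ V.nonunits := by
  have hb0 : b ≠ 0 := by
    rintro rfl
    simp at hb
  have e : a - b = (a / b - 1) * b := by field_simp
  rw [e]
  exact nonunits_mul_mem h ((V.valuation_le_one_iff b).mp hb.le)

theorem valuation_eq_one_of_sub_one_mem {a : L} (h : a - 1 ∈ V.nonunits) :
    V.valuation a = 1 :=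
  valuation_eq_one_of_sub_mem (map_one _) h

theorem mem_principalUnitGroup_iff' (u : Lˣ) :
    u ∈ V.principalUnitGroup ↔ (u : L) - 1 ∈ V.nonunits := by
  rw [ValuationSubring.mem_principalUnitGroup_iff, mem_nonunits_iff_valuation]

end basic

section comap

variable {K L : Type} [Field K] [Field L] (φ : K →+* L) (V : ValuationSubring L)

theorem mem_nonunits_comap_iff (y : K) : y ∈ (V.comap φ).nonunits ↔ φ y ∈ V.nonunits := by
  rw [((presents_valuation V).comap φ).mem_nonunits, mem_nonunits_iff_valuation]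
  rfl

theorem vUnit_comap_iff (y : K) : VUnit (V.comap φ) y ↔ VUnit V (φ y) := by
  unfold VUnit
  rw [ValuationSubring.mem_comap, ValuationSubring.mem_comap, map_inv₀]

theorem valuation_comap_eq_one_iff (y : K) :
    (V.comap φ).valuation y = 1 ↔ V.valuation (φ y) = 1 := by
  rcases eq_or_ne y 0 with rfl | hy
  · simp
  · rw [← vUnit_iff_valuation hy, ← vUnit_iff_valuation ((map_ne_zero φ).mpr hy),
      vUnit_comap_iff]

end comap

section ord

variable {L : Type} [Field L] {V : ValuationSubring L} {t : L}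

/-- A principal valuation subring with a uniformiser is discrete. -/
theorem discAt_of_dkUnif (hV : IsPrincipalIdealRing V) (ht : DKUnif V t) :
    DiscAt V.valuation t := by
  have htop : V ≠ ⊤ := by
    intro h
    have h1 : V.valuation t < 1 := mem_nonunits_iff_valuation.mp ht.2.1
    have h2 : t⁻¹ ∈ V := h ▸ ValuationSubring.mem_top _
    rw [← V.valuation_le_one_iff, map_inv₀] at h2
    have h3 : 0 < V.valuation t := zero_lt_iff.mpr ((Valuation.ne_zero_iff _).mpr ht.1)
    rw [inv_le_one₀ h3] at h2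
    exact absurd h1 (not_lt.mpr h2)
  obtain ⟨t₀, ht₀⟩ := exists_discAt (presents_valuation V) htop hV
  exact ht₀.of_isUniformiser (presents_valuation V) ht

/-- A principal valuation subring with a uniformiser is a discrete valuation ring. -/
theorem isDVR_of_dkUnif (hV : IsPrincipalIdealRing V) (ht : DKUnif V t) :
    IsDiscreteValuationRing V :=
  { not_a_field' := by
      intro h
      have h1 : (⟨t, nonunits_mem ht.2.1⟩ : V) ∈ IsLocalRing.maximalIdeal V :=
        (V.valuation_lt_one_iff _).mpr (mem_nonunits_iff_valuation.mp ht.2.1)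
      rw [h, Ideal.mem_bot] at h1
      exact ht.1 (congrArg Subtype.val h1) }

/-- The order of `x` at `V` with respect to the uniformiser `t`. -/
noncomputable def ordAt (V : ValuationSubring L) (t : L) (x : L) : ℤ := by
  classical
  exact if h : ∃ k : ℤ, V.valuation x = V.valuation t ^ k then Classical.choose h else 0

theorem ordAt_spec (hd : DiscAt V.valuation t) {x : L} (hx : x ≠ 0) :
    V.valuation x = V.valuation t ^ ordAt V t x := by
  classical
  have h := hd.2.2 x hx
  unfold ordAt
  rw [dif_pos h]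
  exact Classical.choose_spec h

theorem ordAt_eq_of_valuation (hd : DiscAt V.valuation t) {x : L} {n : ℤ}
    (h : V.valuation x = V.valuation t ^ n) : ordAt V t x = n := by
  have hx : x ≠ 0 := by
    rintro rfl
    rw [map_zero] at h
    exact (zpow_ne_zero n hd.pos.ne') h.symm
  have h1 := ordAt_spec hd hx
  rw [h] at h1
  exact (hd.zpow_inj.mp h1).symm

theorem vUnit_div_zpow_iff (hd : DiscAt V.valuation t) {x : L} (hx : x ≠ 0) {n : ℤ} :
    VUnit V (x / t ^ n) ↔ V.valuation x = V.valuation t ^ n := by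
  have ht : t ^ n ≠ 0 := zpow_ne_zero n hd.1
  rw [vUnit_iff_valuation (div_ne_zero hx ht), map_div₀, map_zpow₀,
    div_eq_one_iff_eq (zpow_ne_zero n hd.pos.ne')]

theorem ordAt_eq_iff (hd : DiscAt V.valuation t) {x : L} (hx : x ≠ 0) {n : ℤ} :
    ordAt V t x = n ↔ VUnit V (x / t ^ n) := by
  rw [vUnit_div_zpow_iff hd hx]
  constructor
  · rintro rfl
    exact ordAt_spec hd hx
  · exact ordAt_eq_of_valuation hd

theorem vUnit_div_ordAt (hd : DiscAt V.valuation t) {x : L} (hx : x ≠ 0) :
    VUnit V (x / t ^ ordAt V t x) :=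
  (ordAt_eq_iff hd hx).mp rfl

theorem ordAt_mul (hd : DiscAt V.valuation t) {x y : L} (hx : x ≠ 0) (hy : y ≠ 0) :
    ordAt V t (x * y) = ordAt V t x + ordAt V t y := by
  apply ordAt_eq_of_valuation hd
  rw [map_mul, ordAt_spec hd hx, ordAt_spec hd hy, zpow_add₀ hd.pos.ne']

theorem ordAt_eq_zero_iff (hd : DiscAt V.valuation t) {x : L} (hx : x ≠ 0) :
    ordAt V t x = 0 ↔ V.valuation x = 1 := by
  rw [ordAt_eq_iff hd hx, zpow_zero, div_one, vUnit_iff_valuation hx]

theorem ordAt_self (hd : DiscAt V.valuation t) : ordAt V t t = 1 :=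
  ordAt_eq_of_valuation hd (zpow_one _).symm

theorem ordAt_eq_zero_of_sub_one_mem (hd : DiscAt V.valuation t) {x : L}
    (h : x - 1 ∈ V.nonunits) : ordAt V t x = 0 := by
  apply ordAt_eq_of_valuation hd
  rw [zpow_zero]
  exact valuation_eq_one_of_sub_one_mem h

end ord

end Fermat.Agent.H87.SS2
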