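import Fermat.Agent.H11.SS2.Val3Defs

/-!
# P-SS2 (S36), row SS2-A7 / TABLE: the norm hypotheses of the table of the three vertical
valuations, in valuation-subring language (helper87)

`N : E →* F` is a norm map for an embedding `φ : F →+* E`; `O` a valuation subring of `F`,
`W`, `W₁`, `W₂` the valuation subrings of `E` above `O`.

* `VNOne`, `VNTwo`   : valuation of a norm (one branch / two branches above `O`);
* `R0One`, `R0Two`   : norms of `1`-units are `1`-units;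
* `R1Two`            : norm reduction for two branches of residue degree one;
* `RInsep`           : norm reduction for one branch with purely inseparable residue extension;
* `Val3NormHyps`     : the bundle of these statements for `Val3Data`.
-/

set_option autoImplicit false

namespace Fermat.Agent.H87.SS2

open Fermat.Agent.H11.SS2

variable {F E : Type} [Field F] [Field E]

/-- Valuation of a norm, one branch `W` above `O` with residue degree `f`: if `x = unit · t ^ a`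
at `W` then `N x = unit · π ^ (f a)` at `O`. -/
def VNOne (N : E →* F) (O : ValuationSubring F) (π : F) (W : ValuationSubring E) (t : E)
    (f : ℕ) : Prop :=
  ∀ x : E, x ≠ 0 → ∀ a : ℤ, VUnit W (x / t ^ a) → VUnit O (N x / π ^ ((f : ℤ) * a))

/-- Valuation of a norm, two branches `W₁`, `W₂` above `O` with residue degrees `f₁`, `f₂`. -/
def VNTwo (N : E →* F) (O : ValuationSubring F) (π : F) (W₁ W₂ : ValuationSubring E)
    (t₁ t₂ : E) (f₁ f₂ : ℕ) : Prop :=
  ∀ x : E, x ≠ 0 → ∀ a b : ℤ, VUnit W₁ (x / t₁ ^ a) → VUnit W₂ (x / t₂ ^ b) →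
    VUnit O (N x / π ^ ((f₁ : ℤ) * a + (f₂ : ℤ) * b))

/-- Norms of `1`-units, one branch. -/
def R0One (N : E →* F) (O : ValuationSubring F) (W : ValuationSubring E) : Prop :=
  ∀ x : E, x - 1 ∈ W.nonunits → N x - 1 ∈ O.nonunits

/-- Norms of `1`-units, two branches. -/
def R0Two (N : E →* F) (O : ValuationSubring F) (W₁ W₂ : ValuationSubring E) : Prop :=
  ∀ x : E, x - 1 ∈ W₁.nonunits → x - 1 ∈ W₂.nonunits → N x - 1 ∈ O.nonunits

/-- Norm reduction, two branches with `e f = n₁`, `n₂`: if `x ≡ φ y₁` at `W₁` and `x ≡ φ y₂` at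
`W₂` with `y₁, y₂ ∈ O`, then `N x ≡ y₁ ^ n₁ * y₂ ^ n₂` at `O`. -/
def R1Two (φ : F →+* E) (N : E →* F) (O : ValuationSubring F) (W₁ W₂ : ValuationSubring E)
    (n₁ n₂ : ℕ) : Prop :=
  ∀ (x : E) (y₁ y₂ : F), y₁ ∈ O → y₂ ∈ O → x - φ y₁ ∈ W₁.nonunits → x - φ y₂ ∈ W₂.nonunits →
    N x - y₁ ^ n₁ * y₂ ^ n₂ ∈ O.nonunits

/-- Norm reduction, one branch with purely inseparable residue extension of degree `q`:
`φ (N x) ≡ x ^ q` at `W` for `x ∈ W`. -/
def RInsep (φ : F →+* E) (N : E →* F) (W : ValuationSubring E) (q : ℕ) : Prop :=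
  ∀ x ∈ W, φ (N x) - x ^ q ∈ W.nonunits

/-- The norm hypotheses of the table of the three vertical valuations. -/
structure Val3NormHyps (α β : F →+* E) (Nα Nβ : E →* F) (O₁ O₂ : ValuationSubring F)
    (V₂₀ V₁₁ V₀₂ : ValuationSubring E) (q : ℕ) (Z : E) : Prop where
  normα : ∀ y, Nα (α y) = y ^ q
  normβ : ∀ y, Nβ (β y) = y ^ q
  vnα₁ : VNTwo Nα O₁ (q : F) V₂₀ V₁₁ (q : E) Z 1 1
  vnα₂ : VNOne Nα O₂ (q : F) V₀₂ (q : E) q
  vnβ₁ : VNOne Nβ O₁ (q : F) V₂₀ (q : E) q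
  vnβ₂ : VNTwo Nβ O₂ (q : F) V₁₁ V₀₂ Z (q : E) 1 1
  r0α₁ : R0Two Nα O₁ V₂₀ V₁₁
  r0α₂ : R0One Nα O₂ V₀₂
  r0β₁ : R0One Nβ O₁ V₂₀
  r0β₂ : R0Two Nβ O₂ V₁₁ V₀₂
  r1 : R1Two α Nα O₁ V₂₀ V₁₁ 1 (q - 1)
  r2 : RInsep α Nα V₀₂ q
  r3 : RInsep β Nβ V₂₀ q

end Fermat.Agent.H87.SS2
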