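import Fermat.Agent.H87.SS2.Val3Table
import Fermat.Agent.H68.SS2.NormTable

/-!
# P-SS2 (S36), rows SS2-C7 + SS2-A7: steps S1-S2 for `Val3Data`, hypothesis-free on the norm side

`val3_one_unit` = `val3_exists_one_unit` (helper87) composed with `val3NormHyps` (helper68):
the two norms are `Algebra.norm` along `α` and along `β`.
-/

set_option autoImplicit false

namespace Fermat.Agent.H87.SS2

open Fermat.Agent.H11.SS2

variable {K F E : Type} [Field K] [Field F] [Field E] [CharZero F] {iF : K →+* F}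
  {α β : F →+* E} {OK : ValuationSubring K} {O₁ O₂ : ValuationSubring F}
  {V₂₀ V₁₁ V₀₂ : ValuationSubring E} {q m : ℕ} {K0 : Subgroup Kˣ} {Y₁ : F} {Z : E}

/-- The table of the three vertical valuations for the two norms `Algebra.norm` along `α`, `β`. -/
noncomputable def val3TableNorm (hq : q.Prime) (hB : Val3Base iF α β OK O₁ O₂ q m K0)
    (hD : Val3Data α β O₁ O₂ V₂₀ V₁₁ V₀₂ q Y₁ Z)
    (hdα : @FiniteDimensional F E _ _ (@Algebra.toModule F E _ _ α.toAlgebra) ∧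
      @Module.finrank F E _ _ (@Algebra.toModule F E _ _ α.toAlgebra) = q)
    (hdβ : @FiniteDimensional F E _ _ (@Algebra.toModule F E _ _ β.toAlgebra) ∧
      @Module.finrank F E _ _ (@Algebra.toModule F E _ _ β.toAlgebra) = q) :
    MulVertTable Kˣ Fˣ Eˣ q m :=
  val3Table hB hD (Fermat.Agent.H68.SS2.val3NormHyps α β O₁ O₂ hB.pir₁ hB.pir₂ V₂₀ V₁₁ V₀₂ q hq
    Y₁ Z hB.unif₁ hB.unif₂ hdα hdβ hD)

/-- **Steps S1 + S2 for `Val3Data`**, with `Nα`, `Nβ` the norms along `α`, `β`: if the two norms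
of `f ∈ Eˣ` are constants (of `K0`) times `m`-th powers, then
`u₂ = f ^ ((q + 1) * (q - 1)) * κ * G ^ m` (`κ ∈ K0`, `G ∈ Eˣ`) is a `1`-unit at the three
vertical valuations, and the two norms of `u₂` are `p * h₂ ^ m` with `p` a `1`-unit constant and
`h₂` congruent to `m`-th roots of unity at `O₁` and at `O₂`. -/
theorem val3_one_unit (hq : q.Prime) (hB : Val3Base iF α β OK O₁ O₂ q m K0)
    (hD : Val3Data α β O₁ O₂ V₂₀ V₁₁ V₀₂ q Y₁ Z)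
    (hdα : @FiniteDimensional F E _ _ (@Algebra.toModule F E _ _ α.toAlgebra) ∧
      @Module.finrank F E _ _ (@Algebra.toModule F E _ _ α.toAlgebra) = q)
    (hdβ : @FiniteDimensional F E _ _ (@Algebra.toModule F E _ _ β.toAlgebra) ∧
      @Module.finrank F E _ _ (@Algebra.toModule F E _ _ β.toAlgebra) = q)
    (hqm : Nat.Coprime q m) (f : Eˣ) (γ γ' : Kˣ) (hγ : γ ∈ K0) (hγ' : γ' ∈ K0) (h h' : Fˣ)
    (hα : @Algebra.norm F E _ _ α.toAlgebra (f : E) = iF (γ : K) * (h : F) ^ m)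
    (hβ : @Algebra.norm F E _ _ β.toAlgebra (f : E) = iF (γ' : K) * (h' : F) ^ m) :
    ∃ (κ : Kˣ) (G : Eˣ) (u₂ : Eˣ), κ ∈ K0 ∧
      (u₂ : E) = (f : E) ^ ((q + 1) * (q - 1)) * α (iF (κ : K)) * (G : E) ^ m ∧
      (u₂ : E) - 1 ∈ V₂₀.nonunits ∧ (u₂ : E) - 1 ∈ V₁₁.nonunits ∧ (u₂ : E) - 1 ∈ V₀₂.nonunits ∧
      (∃ (p : K) (h₂ : F) (ω10 ω01 : K), p - 1 ∈ OK.nonunits ∧ h₂ ≠ 0 ∧ ω10 ^ m = 1 ∧
        ω01 ^ m = 1 ∧ @Algebra.norm F E _ _ α.toAlgebra (u₂ : E) = iF p * h₂ ^ m ∧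
        h₂ / iF ω10 - 1 ∈ O₁.nonunits ∧ h₂ / iF ω01 - 1 ∈ O₂.nonunits) ∧
      ∃ (p : K) (h₂ : F) (ω10 ω01 : K), p - 1 ∈ OK.nonunits ∧ h₂ ≠ 0 ∧ ω10 ^ m = 1 ∧
        ω01 ^ m = 1 ∧ @Algebra.norm F E _ _ β.toAlgebra (u₂ : E) = iF p * h₂ ^ m ∧
        h₂ / iF ω10 - 1 ∈ O₁.nonunits ∧ h₂ / iF ω01 - 1 ∈ O₂.nonunits :=
  val3_exists_one_unit hB hD
    (Fermat.Agent.H68.SS2.val3NormHyps α β O₁ O₂ hB.pir₁ hB.pir₂ V₂₀ V₁₁ V₀₂ q hq
      Y₁ Z hB.unif₁ hB.unif₂ hdα hdβ hD) hqm f γ γ' hγ hγ' h h' hα hβ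

end Fermat.Agent.H87.SS2
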