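import Mathlib

/-!
# P-SS2 (S36), row SS2-C7: steps S1-S2, the group-theoretic core

Everything is written ADDITIVELY: `KK`, `FF`, `EE` stand for the multiplicative groups of the
constant field `K₁`, of the level-`L` model field and of the level-`M' q²` model field `E₀`.

* `VertTable` : the data (norms, normalised valuations, `1`-unit groups) and the tables of the
  three vertical valuations `V20`, `V11`, `V02` over `V10`, `V01`.
* `VertTable.exists_normalised` (S1): `f₁ = (q + 1) f + k ϖ - m (b Z + c Y)` is a unit at the three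
  vertical valuations, and its two norms are unit constants plus `m`-multiples of units.
* `VertTable.exists_one_unit` (S1 + S2): `u₂ = (q² - 1) f + κ + m G` is a `1`-unit at the three
  vertical valuations.
-/

set_option autoImplicit false

namespace Fermat.Agent.H87.SS2

/-- The table of the three vertical valuations (additive notation). -/
structure VertTable (KK FF EE : Type) [AddCommGroup KK] [AddCommGroup FF] [AddCommGroup EE]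
    (q m : ℕ) where
  /-- constants in the lower field -/
  iF : KK →+ FF
  /-- constants in the upper field -/
  iE : KK →+ EE
  /-- the first degeneracy embedding -/
  α : FF →+ EE
  /-- the second degeneracy embedding -/
  β : FF →+ EE
  /-- the norm along `α` -/
  Nα : EE →+ FF
  /-- the norm along `β` -/
  Nβ : EE →+ FF
  /-- the normalised valuation of the base -/
  vK : KK →+ ℤ
  /-- the two vertical valuations of the lower field -/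
  v10 : FF →+ ℤ
  v01 : FF →+ ℤ
  /-- the three vertical valuations of the upper field -/
  v20 : EE →+ ℤ
  v11 : EE →+ ℤ
  v02 : EE →+ ℤ
  /-- `1`-units of the base -/
  PK : AddSubgroup KK
  /-- `1`-units of the three vertical valuations -/
  P20 : AddSubgroup EE
  P11 : AddSubgroup EE
  P02 : AddSubgroup EE
  /-- the original constants (before an unramified extension of the base) -/
  K0 : AddSubgroup KK
  α_iF : ∀ c, α (iF c) = iE c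
  β_iF : ∀ c, β (iF c) = iE c
  Nα_iE : ∀ c, Nα (iE c) = (q : ℤ) • iF c
  Nβ_iE : ∀ c, Nβ (iE c) = (q : ℤ) • iF c
  v10_Nα : ∀ x, v10 (Nα x) = v20 x + v11 x
  v01_Nα : ∀ x, v01 (Nα x) = (q : ℤ) * v02 x
  v10_Nβ : ∀ x, v10 (Nβ x) = (q : ℤ) * v20 x
  v01_Nβ : ∀ x, v01 (Nβ x) = v11 x + v02 x
  v10_iF : ∀ c, v10 (iF c) = vK c
  v01_iF : ∀ c, v01 (iF c) = vK c
  v20_α : ∀ y, v20 (α y) = v10 y
  v11_α : ∀ y, v11 (α y) = ((q : ℤ) - 1) * v10 y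
  v02_α : ∀ y, v02 (α y) = v01 y
  v20_β : ∀ y, v20 (β y) = v10 y
  P20_le : ∀ x ∈ P20, v20 x = 0
  P11_le : ∀ x ∈ P11, v11 x = 0
  P02_le : ∀ x ∈ P02, v02 x = 0
  iE_PK : ∀ c ∈ PK, iE c ∈ P20 ∧ iE c ∈ P11 ∧ iE c ∈ P02
  /-- the uniformiser `q` of the base -/
  ϖ : KK
  ϖ_mem : ϖ ∈ K0
  vK_ϖ : vK ϖ = 1
  /-- a uniformiser of `V11`, unit at `V20` and `V02` -/
  Z : EE
  /-- a uniformiser of `V02`, unit at `V20` and `V11` -/
  Y : EE
  v20_Z : v20 Z = 0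
  v11_Z : v11 Z = 1
  v02_Z : v02 Z = 0
  v20_Y : v20 Y = 0
  v11_Y : v11 Y = 0
  v02_Y : v02 Y = 1
  /-- norm reduction at `V02 / V01` along `α` (`e = 1`, `f = q` purely inseparable) -/
  R2 : ∀ x, v02 x = 0 → (q : ℤ) • x - α (Nα x) ∈ P02
  /-- norm reduction at `V20 / V10` along `β` (`e = 1`, `f = q` purely inseparable) -/
  R3 : ∀ x, v20 x = 0 → (q : ℤ) • x - β (Nβ x) ∈ P20
  /-- norm reduction at `V10` along `α` (`V20`: `e = f = 1`; `V11`: `e = q - 1`, `f = 1`) -/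
  R1 : ∀ x y, v20 x = 0 → v11 x = 0 → v10 y = 0 → x - α y ∈ P11 →
    α (Nα x) - x - ((q : ℤ) - 1) • α y ∈ P20
  /-- residue degree one at `V11 / V10` along `α` -/
  F11 : ∀ x, v11 x = 0 → ∃ y, v10 y = 0 ∧ x - α y ∈ P11
  /-- residue degree one at `V20 / V10` along `α` -/
  F20 : ∀ x, v20 x = 0 → ∃ y, v10 y = 0 ∧ x - α y ∈ P20
  /-- transfer of congruences between `V20` and `V11` on the lower field -/
  TR : ∀ y, v10 y = 0 → α y ∈ P20 → α y ∈ P11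
  /-- weak approximation for the three vertical valuations -/
  approx : ∀ a20 a11 a02, v20 a20 = 0 → v11 a11 = 0 → v02 a02 = 0 →
    ∃ g, g - a20 ∈ P20 ∧ g - a11 ∈ P11 ∧ g - a02 ∈ P02
  /-- unit constants of the original field are `m`-th powers modulo `1`-units -/
  const : ∀ c ∈ K0, vK c = 0 → ∃ d, vK d = 0 ∧ c - (m : ℤ) • d ∈ PK

namespace VertTable

variable {KK FF EE : Type} [AddCommGroup KK] [AddCommGroup FF] [AddCommGroup EE] {q m : ℕ}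
  (T : VertTable KK FF EE q m)

theorem v20_iE (c : KK) : T.v20 (T.iE c) = T.vK c := by
  rw [← T.α_iF, T.v20_α, T.v10_iF]

theorem v11_iE (c : KK) : T.v11 (T.iE c) = ((q : ℤ) - 1) * T.vK c := by
  rw [← T.α_iF, T.v11_α, T.v10_iF]

theorem v02_iE (c : KK) : T.v02 (T.iE c) = T.vK c := by
  rw [← T.α_iF, T.v02_α, T.v01_iF]

/-- Normalisation of a norm relation: if `y = γ + m h` has valuation `0` at `V10` and `V01`, the
constant `γ` can be taken to be a unit, and then `h` is a unit at `V10` and `V01`. -/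
theorem exists_unit_const (hm : m ≠ 0) (y : FF) (γ : KK) (hγ : γ ∈ T.K0) (h : FF)
    (hy : y = T.iF γ + (m : ℤ) • h) (h10 : T.v10 y = 0) (h01 : T.v01 y = 0) :
    ∃ (γ₁ : KK) (h₁ : FF), γ₁ ∈ T.K0 ∧ T.vK γ₁ = 0 ∧ T.v10 h₁ = 0 ∧ T.v01 h₁ = 0 ∧
      y = T.iF γ₁ + (m : ℤ) • h₁ := by
  have hm' : (m : ℤ) ≠ 0 := by exact_mod_cast hm
  set j : ℤ := T.v10 h with hj
  have e1 : T.vK γ + m * j = 0 := by
    have := congrArg T.v10 hy
    rw [h10, map_add, map_zsmul, T.v10_iF, smul_eq_mul] at this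
    exact this.symm
  have e2 : T.vK γ + m * T.v01 h = 0 := by
    have := congrArg T.v01 hy
    rw [h01, map_add, map_zsmul, T.v01_iF, smul_eq_mul] at this
    exact this.symm
  refine ⟨γ + ((m : ℤ) * j) • T.ϖ, h - j • T.iF T.ϖ,
    T.K0.add_mem hγ (T.K0.zsmul_mem T.ϖ_mem _), ?_, ?_, ?_, ?_⟩
  · rw [map_add, map_zsmul, T.vK_ϖ, smul_eq_mul, mul_one]
    exact e1
  · rw [map_sub, map_zsmul, T.v10_iF, T.vK_ϖ, smul_eq_mul, mul_one, ← hj, sub_self]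
  · rw [map_sub, map_zsmul, T.v01_iF, T.vK_ϖ, smul_eq_mul, mul_one]
    have : (m : ℤ) * (T.v01 h - j) = 0 := by linear_combination e2 - e1
    rcases mul_eq_zero.mp this with h0 | h0
    · exact absurd h0 hm'
    · exact h0
  · rw [hy, map_add, map_zsmul]
    module

/-- **Step S1**: normalisation of the vertical divisor. -/
theorem exists_normalised (hm : m ≠ 0) (f : EE) (γ γ' : KK) (hγ : γ ∈ T.K0) (hγ' : γ' ∈ T.K0)
    (h h' : FF) (hα : T.Nα f = T.iF γ + (m : ℤ) • h) (hβ : T.Nβ f = T.iF γ' + (m : ℤ) • h') :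
    ∃ (k : ℤ) (W : EE) (f₁ : EE), f₁ = ((q : ℤ) + 1) • f + T.iE (k • T.ϖ) - (m : ℤ) • W ∧
      T.v20 f₁ = 0 ∧ T.v11 f₁ = 0 ∧ T.v02 f₁ = 0 ∧
      ∃ (γ₁ γ₁' : KK) (h₁ h₁' : FF), γ₁ ∈ T.K0 ∧ γ₁' ∈ T.K0 ∧ T.vK γ₁ = 0 ∧ T.vK γ₁' = 0 ∧
        T.v10 h₁ = 0 ∧ T.v01 h₁ = 0 ∧ T.v10 h₁' = 0 ∧ T.v01 h₁' = 0 ∧
        T.Nα f₁ = T.iF γ₁ + (m : ℤ) • h₁ ∧ T.Nβ f₁ = T.iF γ₁' + (m : ℤ) • h₁' := by
  have hm' : (m : ℤ) ≠ 0 := by exact_mod_cast hm
  -- the valuations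
  set a20 := T.v20 f with ha20
  set a11 := T.v11 f with ha11
  set a02 := T.v02 f with ha02
  have e1 : a20 + a11 = T.vK γ + m * T.v10 h := by
    have := congrArg T.v10 hα
    rw [T.v10_Nα, map_add, map_zsmul, T.v10_iF, smul_eq_mul] at this
    exact this
  have e2 : (q : ℤ) * a02 = T.vK γ + m * T.v01 h := by
    have := congrArg T.v01 hα
    rw [T.v01_Nα, map_add, map_zsmul, T.v01_iF, smul_eq_mul] at this
    exact this
  have e3 : (q : ℤ) * a20 = T.vK γ' + m * T.v10 h' := by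
    have := congrArg T.v10 hβ
    rw [T.v10_Nβ, map_add, map_zsmul, T.v10_iF, smul_eq_mul] at this
    exact this
  have e4 : a11 + a02 = T.vK γ' + m * T.v01 h' := by
    have := congrArg T.v01 hβ
    rw [T.v01_Nβ, map_add, map_zsmul, T.v01_iF, smul_eq_mul] at this
    exact this
  set s : ℤ := T.v10 h - T.v01 h + (T.v10 h' - T.v01 h') with hs
  set t' : ℤ := T.v10 h' - T.v01 h' with ht'
  set k : ℤ := -(((q : ℤ) + 1) * a20) with hk
  set b : ℤ := s - ((q : ℤ) + 1) * t' with hb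
  set c : ℤ := -s with hc
  set W : EE := b • T.Z + c • T.Y with hW
  set f₁ : EE := ((q : ℤ) + 1) • f + T.iE (k • T.ϖ) - (m : ℤ) • W with hf₁
  have hv20 : T.v20 f₁ = 0 := by
    rw [hf₁, hW]
    simp only [map_sub, map_add, map_zsmul, T.v20_iE, T.vK_ϖ, T.v20_Z, T.v20_Y, smul_eq_mul]
    rw [← ha20, hk]
    ring
  have hv11 : T.v11 f₁ = 0 := by
    rw [hf₁, hW]
    simp only [map_sub, map_add, map_zsmul, T.v11_iE, T.vK_ϖ, T.v11_Z, T.v11_Y, smul_eq_mul]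
    rw [← ha11, hk, hb, hs, ht']
    linear_combination e1 - e2 - (q : ℤ) * e3 + (q : ℤ) * e4
  have hv02 : T.v02 f₁ = 0 := by
    rw [hf₁, hW]
    simp only [map_sub, map_add, map_zsmul, T.v02_iE, T.vK_ϖ, T.v02_Z, T.v02_Y, smul_eq_mul]
    rw [← ha02, hk, hc, hs]
    linear_combination (-1 : ℤ) * e1 + e2 - e3 + e4
  refine ⟨k, W, f₁, rfl, hv20, hv11, hv02, ?_⟩
  -- the two norms
  have hNα : T.Nα f₁ = T.iF (((q : ℤ) + 1) • γ + ((q : ℤ) * k) • T.ϖ) +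
      (m : ℤ) • (((q : ℤ) + 1) • h - T.Nα W) := by
    rw [hf₁]
    simp only [map_sub, map_add, map_zsmul, T.Nα_iE, hα]
    module
  have hNβ : T.Nβ f₁ = T.iF (((q : ℤ) + 1) • γ' + ((q : ℤ) * k) • T.ϖ) +
      (m : ℤ) • (((q : ℤ) + 1) • h' - T.Nβ W) := by
    rw [hf₁]
    simp only [map_sub, map_add, map_zsmul, T.Nβ_iE, hβ]
    module
  obtain ⟨γ₁, h₁, hγ₁, hvγ₁, h10, h01, hN1⟩ := T.exists_unit_const hm (T.Nα f₁) _
    (T.K0.add_mem (T.K0.zsmul_mem hγ _) (T.K0.zsmul_mem T.ϖ_mem _)) _ hNα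
    (by rw [T.v10_Nα, hv20, hv11, add_zero]) (by rw [T.v01_Nα, hv02, mul_zero])
  obtain ⟨γ₁', h₁', hγ₁', hvγ₁', h10', h01', hN1'⟩ := T.exists_unit_const hm (T.Nβ f₁) _
    (T.K0.add_mem (T.K0.zsmul_mem hγ' _) (T.K0.zsmul_mem T.ϖ_mem _)) _ hNβ
    (by rw [T.v10_Nβ, hv20, mul_zero]) (by rw [T.v01_Nβ, hv11, hv02, add_zero])
  exact ⟨γ₁, γ₁', h₁, h₁', hγ₁, hγ₁', hvγ₁, hvγ₁', h10, h01, h10', h01', hN1, hN1'⟩

/-- **Steps S1 + S2**: `u₂ = (q² - 1) f + κ + m G` is a `1`-unit at the three vertical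
valuations, and its two norms are unit constants plus `m`-multiples of units. -/
theorem exists_one_unit (hm : m ≠ 0) (hqm : Nat.Coprime q m) (f : EE) (γ γ' : KK)
    (hγ : γ ∈ T.K0) (hγ' : γ' ∈ T.K0) (h h' : FF)
    (hα : T.Nα f = T.iF γ + (m : ℤ) • h) (hβ : T.Nβ f = T.iF γ' + (m : ℤ) • h') :
    ∃ (κ : KK) (G : EE) (u₂ : EE), κ ∈ T.K0 ∧
      u₂ = (((q : ℤ) + 1) * ((q : ℤ) - 1)) • f + T.iE κ + (m : ℤ) • G ∧
      u₂ ∈ T.P20 ∧ u₂ ∈ T.P11 ∧ u₂ ∈ T.P02 ∧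
      ∃ (γ₂ γ₂' : KK) (h₂ h₂' : FF), γ₂ ∈ T.K0 ∧ γ₂' ∈ T.K0 ∧ T.vK γ₂ = 0 ∧ T.vK γ₂' = 0 ∧
        T.v10 h₂ = 0 ∧ T.v01 h₂ = 0 ∧ T.v10 h₂' = 0 ∧ T.v01 h₂' = 0 ∧
        T.Nα u₂ = T.iF γ₂ + (m : ℤ) • h₂ ∧ T.Nβ u₂ = T.iF γ₂' + (m : ℤ) • h₂' := by
  obtain ⟨k, W, f₁, hf₁, hv20, hv11, hv02, γ₁, γ₁', h₁, h₁', hγ₁, hγ₁', hvγ₁, hvγ₁',
    h10, h01, h10', h01', hN, hN'⟩ := T.exists_normalised hm f γ γ' hγ hγ' h h' hα hβ
  -- Bezout
  obtain ⟨A, B, hAB⟩ : IsCoprime (q : ℤ) (m : ℤ) := Nat.isCoprime_iff_coprime.mpr hqm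
  -- `V02`
  set w02 : EE := A • T.α h₁ + B • f₁ with hw02
  have hc02 : f₁ - T.iE (A • γ₁) - (m : ℤ) • w02 ∈ T.P02 := by
    have h1 := T.P02.zsmul_mem (T.R2 f₁ hv02) A
    have h2 : A • ((q : ℤ) • f₁ - T.α (T.Nα f₁)) = f₁ - T.iE (A • γ₁) - (m : ℤ) • w02 := by
      have h3 : A • ((q : ℤ) • f₁ - T.α (T.Nα f₁)) =
          (A * (q : ℤ) + B * (m : ℤ)) • f₁ - T.iE (A • γ₁) - (m : ℤ) • w02 := by
        rw [hN, map_add, map_zsmul, T.α_iF, map_zsmul, hw02]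
        module
      rw [h3, hAB, one_smul]
    rwa [h2] at h1
  have hvw02 : T.v02 w02 = 0 := by
    rw [hw02, map_add, map_zsmul, map_zsmul, T.v02_α, h01, hv02]
    simp
  -- `V20`
  set w20 : EE := A • T.β h₁' + B • f₁ with hw20
  have hc20 : f₁ - T.iE (A • γ₁') - (m : ℤ) • w20 ∈ T.P20 := by
    have h1 := T.P20.zsmul_mem (T.R3 f₁ hv20) A
    have h2 : A • ((q : ℤ) • f₁ - T.β (T.Nβ f₁)) = f₁ - T.iE (A • γ₁') - (m : ℤ) • w20 := by
      have h3 : A • ((q : ℤ) • f₁ - T.β (T.Nβ f₁)) =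
          (A * (q : ℤ) + B * (m : ℤ)) • f₁ - T.iE (A • γ₁') - (m : ℤ) • w20 := by
        rw [hN', map_add, map_zsmul, T.β_iF, map_zsmul, hw20]
        module
      rw [h3, hAB, one_smul]
    rwa [h2] at h1
  have hvw20 : T.v20 w20 = 0 := by
    rw [hw20, map_add, map_zsmul, map_zsmul, T.v20_β, h10', hv20]
    simp
  -- `V11`
  obtain ⟨y, hy10, hy⟩ := T.F11 f₁ hv11
  have hR1 := T.R1 f₁ y hv20 hv11 hy10 hy
  obtain ⟨z, hz10, hz⟩ := T.F20 w20 hvw20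
  set Y₀ : FF := ((q : ℤ) - 1) • y - T.iF (γ₁ - A • γ₁') - (m : ℤ) • h₁ + (m : ℤ) • z with hY₀
  have hvY₀ : T.v10 Y₀ = 0 := by
    rw [hY₀]
    simp only [map_add, map_sub, map_zsmul, T.v10_iF, hy10, h10, hz10, hvγ₁, hvγ₁', smul_eq_mul]
    ring
  have hαY₀ : T.α Y₀ ∈ T.P20 := by
    have h1 : T.α Y₀ = -(T.α (T.Nα f₁) - f₁ - ((q : ℤ) - 1) • T.α y)
        - (f₁ - T.iE (A • γ₁') - (m : ℤ) • w20) - (m : ℤ) • (w20 - T.α z) := by
      rw [hY₀, hN]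
      simp only [map_add, map_sub, map_zsmul, T.α_iF]
      module
    rw [h1]
    exact T.P20.sub_mem (T.P20.sub_mem (T.P20.neg_mem hR1) hc20) (T.P20.zsmul_mem hz _)
  have hαY₀' : T.α Y₀ ∈ T.P11 := T.TR Y₀ hvY₀ hαY₀
  set w11 : EE := T.α (h₁ - z) with hw11
  have hc11 : ((q : ℤ) - 1) • f₁ - T.iE (γ₁ - A • γ₁') - (m : ℤ) • w11 ∈ T.P11 := by
    have h1 : ((q : ℤ) - 1) • f₁ - T.iE (γ₁ - A • γ₁') - (m : ℤ) • w11 =
        ((q : ℤ) - 1) • (f₁ - T.α y) + T.α Y₀ := by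
      rw [hY₀, hw11]
      simp only [map_add, map_sub, map_zsmul, T.α_iF]
      module
    rw [h1]
    exact T.P11.add_mem (T.P11.zsmul_mem hy _) hαY₀'
  have hvw11 : T.v11 w11 = 0 := by
    rw [hw11, T.v11_α, map_sub, h10, hz10]
    simp
  -- the constants
  have hK1 : A • γ₁ ∈ T.K0 := T.K0.zsmul_mem hγ₁ _
  have hK1' : A • γ₁' ∈ T.K0 := T.K0.zsmul_mem hγ₁' _
  obtain ⟨d20, hd20, hd20'⟩ := T.const (((q : ℤ) - 1) • (A • γ₁')) (T.K0.zsmul_mem hK1' _)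
    (by rw [map_zsmul, map_zsmul, hvγ₁']; simp)
  obtain ⟨d11, hd11, hd11'⟩ := T.const (γ₁ - A • γ₁') (T.K0.sub_mem hγ₁ hK1')
    (by rw [map_sub, map_zsmul, hvγ₁, hvγ₁']; simp)
  obtain ⟨d02, hd02, hd02'⟩ := T.const (((q : ℤ) - 1) • (A • γ₁)) (T.K0.zsmul_mem hK1 _)
    (by rw [map_zsmul, map_zsmul, hvγ₁]; simp)
  -- approximation
  obtain ⟨g, hg20, hg11, hg02⟩ := T.approx (T.iE d20 + ((q : ℤ) - 1) • w20) (T.iE d11 + w11)
    (T.iE d02 + ((q : ℤ) - 1) • w02)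
    (by rw [map_add, map_zsmul, T.v20_iE, hd20, hvw20]; simp)
    (by rw [map_add, T.v11_iE, hd11, hvw11]; simp)
    (by rw [map_add, map_zsmul, T.v02_iE, hd02, hvw02]; simp)
  set u₂ : EE := ((q : ℤ) - 1) • f₁ - (m : ℤ) • g with hu₂
  have hu20 : u₂ ∈ T.P20 := by
    have h1 : u₂ = ((q : ℤ) - 1) • (f₁ - T.iE (A • γ₁') - (m : ℤ) • w20)
        + T.iE (((q : ℤ) - 1) • (A • γ₁') - (m : ℤ) • d20)
        - (m : ℤ) • (g - (T.iE d20 + ((q : ℤ) - 1) • w20)) := by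
      rw [hu₂]
      simp only [map_sub, map_zsmul]
      module
    rw [h1]
    exact T.P20.sub_mem (T.P20.add_mem (T.P20.zsmul_mem hc20 _) (T.iE_PK _ hd20').1)
      (T.P20.zsmul_mem hg20 _)
  have hu11 : u₂ ∈ T.P11 := by
    have h1 : u₂ = (((q : ℤ) - 1) • f₁ - T.iE (γ₁ - A • γ₁') - (m : ℤ) • w11)
        + T.iE (γ₁ - A • γ₁' - (m : ℤ) • d11)
        - (m : ℤ) • (g - (T.iE d11 + w11)) := by
      rw [hu₂]
      simp only [map_sub, map_zsmul]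
      module
    rw [h1]
    exact T.P11.sub_mem (T.P11.add_mem hc11 (T.iE_PK _ hd11').2.1) (T.P11.zsmul_mem hg11 _)
  have hu02 : u₂ ∈ T.P02 := by
    have h1 : u₂ = ((q : ℤ) - 1) • (f₁ - T.iE (A • γ₁) - (m : ℤ) • w02)
        + T.iE (((q : ℤ) - 1) • (A • γ₁) - (m : ℤ) • d02)
        - (m : ℤ) • (g - (T.iE d02 + ((q : ℤ) - 1) • w02)) := by
      rw [hu₂]
      simp only [map_sub, map_zsmul]
      module
    rw [h1]
    exact T.P02.sub_mem (T.P02.add_mem (T.P02.zsmul_mem hc02 _) (T.iE_PK _ hd02').2.2)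
      (T.P02.zsmul_mem hg02 _)
  refine ⟨(((q : ℤ) - 1) * k) • T.ϖ, -(((q : ℤ) - 1) • W) - g, u₂, T.K0.zsmul_mem T.ϖ_mem _, ?_,
    hu20, hu11, hu02, ?_⟩
  · rw [hu₂, hf₁]
    simp only [map_zsmul]
    module
  -- the norms of `u₂`
  have hNα : T.Nα u₂ = T.iF (((q : ℤ) - 1) • γ₁) +
      (m : ℤ) • (((q : ℤ) - 1) • h₁ - T.Nα g) := by
    rw [hu₂]
    simp only [map_sub, map_zsmul, hN]
    module
  have hNβ : T.Nβ u₂ = T.iF (((q : ℤ) - 1) • γ₁') +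
      (m : ℤ) • (((q : ℤ) - 1) • h₁' - T.Nβ g) := by
    rw [hu₂]
    simp only [map_sub, map_zsmul, hN']
    module
  have hu20v := T.P20_le _ hu20
  have hu11v := T.P11_le _ hu11
  have hu02v := T.P02_le _ hu02
  obtain ⟨γ₂, h₂, hγ₂, hvγ₂, h₂10, h₂01, hN2⟩ := T.exists_unit_const hm (T.Nα u₂) _
    (T.K0.zsmul_mem hγ₁ _) _ hNα
    (by rw [T.v10_Nα, hu20v, hu11v, add_zero]) (by rw [T.v01_Nα, hu02v, mul_zero])
  obtain ⟨γ₂', h₂', hγ₂', hvγ₂', h₂10', h₂01', hN2'⟩ := T.exists_unit_const hm (T.Nβ u₂) _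
    (T.K0.zsmul_mem hγ₁' _) _ hNβ
    (by rw [T.v10_Nβ, hu20v, mul_zero]) (by rw [T.v01_Nβ, hu11v, hu02v, add_zero])
  exact ⟨γ₂, γ₂', h₂, h₂', hγ₂, hγ₂', hvγ₂, hvγ₂', h₂10, h₂01, h₂10', h₂01', hN2, hN2'⟩

end VertTable

end Fermat.Agent.H87.SS2
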