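import Fermat.Agent.H87.SS2.S1S2Roots

/-!
# P-SS2 (S36), row SS2-C7: steps S1-S2, multiplicative form

`MulVertTable GK GF GE q m` : the tables of `VertTableR` for commutative groups written
multiplicatively (instantiate with `GK = K₁ˣ`, `GF = F_Lˣ`, `GE = E₀ˣ`, the `1`-unit groups
`ValuationSubring.principalUnitGroup`, and integer valued `ord` functions).

`MulVertTable.exists_one_unit` : `u₂ = f ^ ((q + 1) * (q - 1)) * κ * G ^ m` is a `1`-unit at the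
three vertical valuations and its two norms are `p * h₂ ^ m` with `p` a `1`-unit constant and
`h₂` congruent to `m`-th roots of unity at `V10`, `V01`.
-/

set_option autoImplicit false

namespace Fermat.Agent.H87.SS2

/-- The table of the three vertical valuations, multiplicative notation. -/
structure MulVertTable (GK GF GE : Type) [CommGroup GK] [CommGroup GF] [CommGroup GE]
    (q m : ℕ) where
  iF : GK →* GF
  iE : GK →* GE
  α : GF →* GE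
  β : GF →* GE
  Nα : GE →* GF
  Nβ : GE →* GF
  vK : GK → ℤ
  v10 : GF → ℤ
  v01 : GF → ℤ
  v20 : GE → ℤ
  v11 : GE → ℤ
  v02 : GE → ℤ
  vK_mul : ∀ x y, vK (x * y) = vK x + vK y
  v10_mul : ∀ x y, v10 (x * y) = v10 x + v10 y
  v01_mul : ∀ x y, v01 (x * y) = v01 x + v01 y
  v20_mul : ∀ x y, v20 (x * y) = v20 x + v20 y
  v11_mul : ∀ x y, v11 (x * y) = v11 x + v11 y
  v02_mul : ∀ x y, v02 (x * y) = v02 x + v02 y
  PK : Subgroup GK
  P10 : Subgroup GF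
  P01 : Subgroup GF
  P20 : Subgroup GE
  P11 : Subgroup GE
  P02 : Subgroup GE
  K0 : Subgroup GK
  α_iF : ∀ c, α (iF c) = iE c
  β_iF : ∀ c, β (iF c) = iE c
  Nα_iE : ∀ c, Nα (iE c) = iF c ^ q
  Nβ_iE : ∀ c, Nβ (iE c) = iF c ^ q
  v10_Nα : ∀ x, v10 (Nα x) = v20 x + v11 x
  v01_Nα : ∀ x, v01 (Nα x) = (q : ℤ) * v02 x
  v10_Nβ : ∀ x, v10 (Nβ x) = (q : ℤ) * v20 x
  v01_Nβ : ∀ x, v01 (Nβ x) = v11 x + v02 x
  v10_iF : ∀ c, v10 (iF c) = vK c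
  v01_iF : ∀ c, v01 (iF c) = vK c
  v20_α : ∀ y, v20 (α y) = v10 y
  v11_α : ∀ y, v11 (α y) = ((q : ℤ) - 1) * v10 y
  v02_α : ∀ y, v02 (α y) = v01 y
  v20_β : ∀ y, v20 (β y) = v10 y
  P20_le : ∀ x ∈ P20, v20 x = 0
  P11_le : ∀ x ∈ P11, v11 x = 0
  P02_le : ∀ x ∈ P02, v02 x = 0
  iE_PK : ∀ c ∈ PK, iE c ∈ P20 ∧ iE c ∈ P11 ∧ iE c ∈ P02
  iF_PK : ∀ c ∈ PK, iF c ∈ P10 ∧ iF c ∈ P01
  ϖ : GK
  ϖ_mem : ϖ ∈ K0
  vK_ϖ : vK ϖ = 1
  Z : GE
  Y : GE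
  v20_Z : v20 Z = 0
  v11_Z : v11 Z = 1
  v02_Z : v02 Z = 0
  v20_Y : v20 Y = 0
  v11_Y : v11 Y = 0
  v02_Y : v02 Y = 1
  R2 : ∀ x, v02 x = 0 → x ^ q / α (Nα x) ∈ P02
  R3 : ∀ x, v20 x = 0 → x ^ q / β (Nβ x) ∈ P20
  R1 : ∀ x y, v20 x = 0 → v11 x = 0 → v10 y = 0 → x / α y ∈ P11 →
    α (Nα x) / x / α y ^ ((q : ℤ) - 1) ∈ P20
  F11 : ∀ x, v11 x = 0 → ∃ y, v10 y = 0 ∧ x / α y ∈ P11
  F20 : ∀ x, v20 x = 0 → ∃ y, v10 y = 0 ∧ x / α y ∈ P20
  TR : ∀ y, v10 y = 0 → α y ∈ P20 → α y ∈ P11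
  approx : ∀ a20 a11 a02, v20 a20 = 0 → v11 a11 = 0 → v02 a02 = 0 →
    ∃ g, g / a20 ∈ P20 ∧ g / a11 ∈ P11 ∧ g / a02 ∈ P02
  const : ∀ c ∈ K0, vK c = 0 → ∃ d, vK d = 0 ∧ c / d ^ m ∈ PK
  R0α10 : ∀ x, x ∈ P20 → x ∈ P11 → Nα x ∈ P10
  R0α01 : ∀ x, x ∈ P02 → Nα x ∈ P01
  R0β10 : ∀ x, x ∈ P20 → Nβ x ∈ P10
  R0β01 : ∀ x, x ∈ P11 → x ∈ P02 → Nβ x ∈ P01
  roots10 : ∀ y, y ^ m ∈ P10 → ∃ ω : GK, ω ^ m = 1 ∧ y / iF ω ∈ P10
  roots01 : ∀ y, y ^ m ∈ P01 → ∃ ω : GK, ω ^ m = 1 ∧ y / iF ω ∈ P01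

/-- An integer valued function on a commutative group which is additive on products, as an
additive homomorphism. -/
def ordHom {G : Type} [CommGroup G] (v : G → ℤ) (hv : ∀ x y, v (x * y) = v x + v y) :
    Additive G →+ ℤ where
  toFun x := v x.toMul
  map_zero' := by
    have h := hv 1 1
    rw [mul_one] at h
    show v 1 = 0
    omega
  map_add' x y := hv x.toMul y.toMul

@[simp] theorem ordHom_apply {G : Type} [CommGroup G] (v : G → ℤ)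
    (hv : ∀ x y, v (x * y) = v x + v y) (x : Additive G) : ordHom v hv x = v x.toMul := rfl

theorem zsmul_ofMul_natCast {G : Type} [CommGroup G] (n : ℕ) (x : G) :
    (n : ℤ) • Additive.ofMul x = Additive.ofMul (x ^ n) := by
  rw [natCast_zsmul]
  rfl

namespace MulVertTable

variable {GK GF GE : Type} [CommGroup GK] [CommGroup GF] [CommGroup GE] {q m : ℕ}
  (T : MulVertTable GK GF GE q m)

/-- The additive table attached to a multiplicative table. -/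
def toCore : VertTable (Additive GK) (Additive GF) (Additive GE) q m where
  iF := MonoidHom.toAdditive T.iF
  iE := MonoidHom.toAdditive T.iE
  α := MonoidHom.toAdditive T.α
  β := MonoidHom.toAdditive T.β
  Nα := MonoidHom.toAdditive T.Nα
  Nβ := MonoidHom.toAdditive T.Nβ
  vK := ordHom T.vK T.vK_mul
  v10 := ordHom T.v10 T.v10_mul
  v01 := ordHom T.v01 T.v01_mul
  v20 := ordHom T.v20 T.v20_mul
  v11 := ordHom T.v11 T.v11_mul
  v02 := ordHom T.v02 T.v02_mul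
  PK := Subgroup.toAddSubgroup T.PK
  P20 := Subgroup.toAddSubgroup T.P20
  P11 := Subgroup.toAddSubgroup T.P11
  P02 := Subgroup.toAddSubgroup T.P02
  K0 := Subgroup.toAddSubgroup T.K0
  α_iF c := congrArg Additive.ofMul (T.α_iF c.toMul)
  β_iF c := congrArg Additive.ofMul (T.β_iF c.toMul)
  Nα_iE c := by
    show Additive.ofMul (T.Nα (T.iE c.toMul)) = (q : ℤ) • Additive.ofMul (T.iF c.toMul)
    rw [T.Nα_iE, zsmul_ofMul_natCast]
  Nβ_iE c := by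
    show Additive.ofMul (T.Nβ (T.iE c.toMul)) = (q : ℤ) • Additive.ofMul (T.iF c.toMul)
    rw [T.Nβ_iE, zsmul_ofMul_natCast]
  v10_Nα x := T.v10_Nα x.toMul
  v01_Nα x := T.v01_Nα x.toMul
  v10_Nβ x := T.v10_Nβ x.toMul
  v01_Nβ x := T.v01_Nβ x.toMul
  v10_iF c := T.v10_iF c.toMul
  v01_iF c := T.v01_iF c.toMul
  v20_α y := T.v20_α y.toMul
  v11_α y := T.v11_α y.toMul
  v02_α y := T.v02_α y.toMul
  v20_β y := T.v20_β y.toMul
  P20_le x hx := T.P20_le x.toMul hx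
  P11_le x hx := T.P11_le x.toMul hx
  P02_le x hx := T.P02_le x.toMul hx
  iE_PK c hc := T.iE_PK c.toMul hc
  ϖ := Additive.ofMul T.ϖ
  ϖ_mem := T.ϖ_mem
  vK_ϖ := T.vK_ϖ
  Z := Additive.ofMul T.Z
  Y := Additive.ofMul T.Y
  v20_Z := T.v20_Z
  v11_Z := T.v11_Z
  v02_Z := T.v02_Z
  v20_Y := T.v20_Y
  v11_Y := T.v11_Y
  v02_Y := T.v02_Y
  R2 x hx := by
    have h := T.R2 x.toMul hx
    show ((q : ℤ) • x - Additive.ofMul (T.α (T.Nα x.toMul))) ∈ Subgroup.toAddSubgroup T.P02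
    have e : (q : ℤ) • x - Additive.ofMul (T.α (T.Nα x.toMul)) =
        Additive.ofMul (x.toMul ^ q / T.α (T.Nα x.toMul)) := by
      rw [ofMul_div, ← zsmul_ofMul_natCast]
      rfl
    rw [e]
    exact h
  R3 x hx := by
    have h := T.R3 x.toMul hx
    show ((q : ℤ) • x - Additive.ofMul (T.β (T.Nβ x.toMul))) ∈ Subgroup.toAddSubgroup T.P20
    have e : (q : ℤ) • x - Additive.ofMul (T.β (T.Nβ x.toMul)) =
        Additive.ofMul (x.toMul ^ q / T.β (T.Nβ x.toMul)) := by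
      rw [ofMul_div, ← zsmul_ofMul_natCast]
      rfl
    rw [e]
    exact h
  R1 x y hx hx' hy hxy := by
    have h := T.R1 x.toMul y.toMul hx hx' hy hxy
    exact h
  F11 x hx := by
    obtain ⟨y, hy, hxy⟩ := T.F11 x.toMul hx
    exact ⟨Additive.ofMul y, hy, hxy⟩
  F20 x hx := by
    obtain ⟨y, hy, hxy⟩ := T.F20 x.toMul hx
    exact ⟨Additive.ofMul y, hy, hxy⟩
  TR y hy h := T.TR y.toMul hy h
  approx a20 a11 a02 h20 h11 h02 := by
    obtain ⟨g, h1, h2, h3⟩ := T.approx a20.toMul a11.toMul a02.toMul h20 h11 h02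
    exact ⟨Additive.ofMul g, h1, h2, h3⟩
  const c hc hv := by
    obtain ⟨d, hd, h⟩ := T.const c.toMul hc hv
    refine ⟨Additive.ofMul d, hd, ?_⟩
    show (c - (m : ℤ) • Additive.ofMul d) ∈ Subgroup.toAddSubgroup T.PK
    rw [zsmul_ofMul_natCast]
    exact h

/-- The additive table with `1`-units of the lower field attached to a multiplicative table. -/
def toCoreR : VertTableR (Additive GK) (Additive GF) (Additive GE) q m where
  toVertTable := T.toCore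
  P10 := Subgroup.toAddSubgroup T.P10
  P01 := Subgroup.toAddSubgroup T.P01
  iF_PK c hc := T.iF_PK c.toMul hc
  R0α10 x h1 h2 := T.R0α10 x.toMul h1 h2
  R0α01 x h1 := T.R0α01 x.toMul h1
  R0β10 x h1 := T.R0β10 x.toMul h1
  R0β01 x h1 h2 := T.R0β01 x.toMul h1 h2
  roots10 y hy := by
    have hy' : y.toMul ^ m ∈ T.P10 := by
      have e : (m : ℤ) • y = Additive.ofMul (y.toMul ^ m) := zsmul_ofMul_natCast m y.toMul
      rw [e] at hy
      exact hy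
    obtain ⟨ω, hω, h⟩ := T.roots10 y.toMul hy'
    refine ⟨Additive.ofMul ω, ?_, h⟩
    rw [zsmul_ofMul_natCast, hω]
    rfl
  roots01 y hy := by
    have hy' : y.toMul ^ m ∈ T.P01 := by
      have e : (m : ℤ) • y = Additive.ofMul (y.toMul ^ m) := zsmul_ofMul_natCast m y.toMul
      rw [e] at hy
      exact hy
    obtain ⟨ω, hω, h⟩ := T.roots01 y.toMul hy'
    refine ⟨Additive.ofMul ω, ?_, h⟩
    rw [zsmul_ofMul_natCast, hω]
    rfl

/-- Translation of the conclusion about a norm. -/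
theorem norm_concl_of_add (N : GE →* GF) (u₂ : GE)
    (h : ∃ (p : Additive GK) (h₂ : Additive GF) (ω10 ω01 : Additive GK),
      p ∈ Subgroup.toAddSubgroup T.PK ∧ (m : ℤ) • ω10 = 0 ∧ (m : ℤ) • ω01 = 0 ∧
      Additive.ofMul (N u₂) = MonoidHom.toAdditive T.iF p + (m : ℤ) • h₂ ∧
      h₂ - MonoidHom.toAdditive T.iF ω10 ∈ Subgroup.toAddSubgroup T.P10 ∧
      h₂ - MonoidHom.toAdditive T.iF ω01 ∈ Subgroup.toAddSubgroup T.P01) :
    ∃ (p : GK) (h₂ : GF) (ω10 ω01 : GK), p ∈ T.PK ∧ ω10 ^ m = 1 ∧ ω01 ^ m = 1 ∧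
      N u₂ = T.iF p * h₂ ^ m ∧ h₂ / T.iF ω10 ∈ T.P10 ∧ h₂ / T.iF ω01 ∈ T.P01 := by
  obtain ⟨p, h₂, ω10, ω01, hp, hω10, hω01, hN, h10, h01⟩ := h
  refine ⟨p.toMul, h₂.toMul, ω10.toMul, ω01.toMul, hp, ?_, ?_, ?_, h10, h01⟩
  · have e : (m : ℤ) • ω10 = Additive.ofMul (ω10.toMul ^ m) := zsmul_ofMul_natCast m ω10.toMul
    rw [e] at hω10
    exact hω10
  · have e : (m : ℤ) • ω01 = Additive.ofMul (ω01.toMul ^ m) := zsmul_ofMul_natCast m ω01.toMul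
    rw [e] at hω01
    exact hω01
  · have e : (m : ℤ) • h₂ = Additive.ofMul (h₂.toMul ^ m) := zsmul_ofMul_natCast m h₂.toMul
    rw [e] at hN
    exact hN

/-- **Steps S1 + S2 (multiplicative form)**: if the two norms of `f` are constants (of the
original constant field) times `m`-th powers, then `u₂ = f ^ ((q + 1) * (q - 1)) * κ * G ^ m` is
a `1`-unit at the three vertical valuations, and the two norms of `u₂` are `p * h₂ ^ m` with `p`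
a `1`-unit constant and `h₂` congruent to `m`-th roots of unity at `V10` and at `V01`. -/
theorem exists_one_unit (hq : 1 ≤ q) (hm : m ≠ 0) (hqm : Nat.Coprime q m) (f : GE) (γ γ' : GK)
    (hγ : γ ∈ T.K0) (hγ' : γ' ∈ T.K0) (h h' : GF)
    (hα : T.Nα f = T.iF γ * h ^ m) (hβ : T.Nβ f = T.iF γ' * h' ^ m) :
    ∃ (κ : GK) (G : GE) (u₂ : GE), κ ∈ T.K0 ∧
      u₂ = f ^ ((q + 1) * (q - 1)) * T.iE κ * G ^ m ∧
      u₂ ∈ T.P20 ∧ u₂ ∈ T.P11 ∧ u₂ ∈ T.P02 ∧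
      (∃ (p : GK) (h₂ : GF) (ω10 ω01 : GK), p ∈ T.PK ∧ ω10 ^ m = 1 ∧ ω01 ^ m = 1 ∧
        T.Nα u₂ = T.iF p * h₂ ^ m ∧ h₂ / T.iF ω10 ∈ T.P10 ∧ h₂ / T.iF ω01 ∈ T.P01) ∧
      ∃ (p : GK) (h₂ : GF) (ω10 ω01 : GK), p ∈ T.PK ∧ ω10 ^ m = 1 ∧ ω01 ^ m = 1 ∧
        T.Nβ u₂ = T.iF p * h₂ ^ m ∧ h₂ / T.iF ω10 ∈ T.P10 ∧ h₂ / T.iF ω01 ∈ T.P01 := by
  have hα' : T.toCoreR.Nα (Additive.ofMul f) =
      T.toCoreR.iF (Additive.ofMul γ) + (m : ℤ) • Additive.ofMul h := by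
    rw [zsmul_ofMul_natCast]
    exact congrArg Additive.ofMul hα
  have hβ' : T.toCoreR.Nβ (Additive.ofMul f) =
      T.toCoreR.iF (Additive.ofMul γ') + (m : ℤ) • Additive.ofMul h' := by
    rw [zsmul_ofMul_natCast]
    exact congrArg Additive.ofMul hβ
  obtain ⟨κ, G, u₂, hκ, hu₂, h20, h11, h02, hNα, hNβ⟩ :=
    T.toCoreR.exists_one_unit_roots hm hqm (Additive.ofMul f) (Additive.ofMul γ)
      (Additive.ofMul γ') hγ hγ' (Additive.ofMul h) (Additive.ofMul h') hα' hβ'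
  refine ⟨κ.toMul, G.toMul, u₂.toMul, hκ, ?_, h20, h11, h02,
    T.norm_concl_of_add T.Nα u₂.toMul hNα, T.norm_concl_of_add T.Nβ u₂.toMul hNβ⟩
  have e1 : (((q : ℤ) + 1) * ((q : ℤ) - 1)) = (((q + 1) * (q - 1) : ℕ) : ℤ) := by
    push_cast [Nat.cast_sub hq]
    ring
  rw [e1, zsmul_ofMul_natCast] at hu₂
  have e2 : (m : ℤ) • G = Additive.ofMul (G.toMul ^ m) := zsmul_ofMul_natCast m G.toMul
  rw [e2] at hu₂
  exact congrArg Additive.toMul hu₂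

end MulVertTable

end Fermat.Agent.H87.SS2
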