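import Fermat.Agent.H87.SS2.S1S2Core

/-!
# P-SS2 (S36), row SS2-C7: steps S1-S2 with normalised norm constants

Extension of `VertTable` by the `1`-unit groups `P10`, `P01` of the lower field, the fact that
norms of `1`-units are `1`-units (R0) and the description of the `m`-torsion of the residue
fields (ROOTS).  Output: the two norms of `u₂` are `p + m h₂` with `p` a `1`-unit constant and
`h₂` congruent to `m`-torsion constants `ω10`, `ω01` at `V10`, `V01`.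
-/

set_option autoImplicit false

namespace Fermat.Agent.H87.SS2

/-- The table of the three vertical valuations, with the `1`-units of the lower field. -/
structure VertTableR (KK FF EE : Type) [AddCommGroup KK] [AddCommGroup FF] [AddCommGroup EE]
    (q m : ℕ) extends VertTable KK FF EE q m where
  /-- `1`-units of the two vertical valuations of the lower field -/
  P10 : AddSubgroup FF
  P01 : AddSubgroup FF
  iF_PK : ∀ c ∈ PK, iF c ∈ P10 ∧ iF c ∈ P01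
  /-- norms of `1`-units are `1`-units -/
  R0α10 : ∀ x, x ∈ P20 → x ∈ P11 → Nα x ∈ P10
  R0α01 : ∀ x, x ∈ P02 → Nα x ∈ P01
  R0β10 : ∀ x, x ∈ P20 → Nβ x ∈ P10
  R0β01 : ∀ x, x ∈ P11 → x ∈ P02 → Nβ x ∈ P01
  /-- the `m`-torsion of the residue fields consists of constants -/
  roots10 : ∀ y, (m : ℤ) • y ∈ P10 → ∃ ω : KK, (m : ℤ) • ω = 0 ∧ y - iF ω ∈ P10
  roots01 : ∀ y, (m : ℤ) • y ∈ P01 → ∃ ω : KK, (m : ℤ) • ω = 0 ∧ y - iF ω ∈ P01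

namespace VertTableR

variable {KK FF EE : Type} [AddCommGroup KK] [AddCommGroup FF] [AddCommGroup EE] {q m : ℕ}
  (T : VertTableR KK FF EE q m)

/-- Normalisation of the constant of a norm which is a `1`-unit at `V10` and `V01`. -/
theorem exists_roots (y : FF) (γ : KK) (hγ : γ ∈ T.K0) (hvγ : T.vK γ = 0) (h : FF)
    (hy : y = T.iF γ + (m : ℤ) • h) (h10 : y ∈ T.P10) (h01 : y ∈ T.P01) :
    ∃ (p : KK) (h₂ : FF) (ω10 ω01 : KK), p ∈ T.PK ∧ (m : ℤ) • ω10 = 0 ∧ (m : ℤ) • ω01 = 0 ∧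
      y = T.iF p + (m : ℤ) • h₂ ∧ h₂ - T.iF ω10 ∈ T.P10 ∧ h₂ - T.iF ω01 ∈ T.P01 := by
  obtain ⟨d, -, hd⟩ := T.const γ hγ hvγ
  have hy' : y = T.iF (γ - (m : ℤ) • d) + (m : ℤ) • (T.iF d + h) := by
    rw [hy, map_sub, map_zsmul]
    module
  have hm : (m : ℤ) • (T.iF d + h) = y - T.iF (γ - (m : ℤ) • d) := by
    rw [hy']
    module
  obtain ⟨ω10, hω10, h1⟩ := T.roots10 (T.iF d + h) (by
    rw [hm]
    exact T.P10.sub_mem h10 (T.iF_PK _ hd).1)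
  obtain ⟨ω01, hω01, h2⟩ := T.roots01 (T.iF d + h) (by
    rw [hm]
    exact T.P01.sub_mem h01 (T.iF_PK _ hd).2)
  exact ⟨γ - (m : ℤ) • d, T.iF d + h, ω10, ω01, hd, hω10, hω01, hy', h1, h2⟩

/-- **Steps S1 + S2, with normalised norms**: `u₂ = (q² - 1) f + κ + m G` is a `1`-unit at the
three vertical valuations; its two norms are `p + m h₂` with `p` a `1`-unit constant and `h₂`
congruent to `m`-torsion constants at `V10` and at `V01`. -/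
theorem exists_one_unit_roots (hm : m ≠ 0) (hqm : Nat.Coprime q m) (f : EE) (γ γ' : KK)
    (hγ : γ ∈ T.K0) (hγ' : γ' ∈ T.K0) (h h' : FF)
    (hα : T.Nα f = T.iF γ + (m : ℤ) • h) (hβ : T.Nβ f = T.iF γ' + (m : ℤ) • h') :
    ∃ (κ : KK) (G : EE) (u₂ : EE), κ ∈ T.K0 ∧
      u₂ = (((q : ℤ) + 1) * ((q : ℤ) - 1)) • f + T.iE κ + (m : ℤ) • G ∧
      u₂ ∈ T.P20 ∧ u₂ ∈ T.P11 ∧ u₂ ∈ T.P02 ∧
      (∃ (p : KK) (h₂ : FF) (ω10 ω01 : KK), p ∈ T.PK ∧ (m : ℤ) • ω10 = 0 ∧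
        (m : ℤ) • ω01 = 0 ∧ T.Nα u₂ = T.iF p + (m : ℤ) • h₂ ∧
        h₂ - T.iF ω10 ∈ T.P10 ∧ h₂ - T.iF ω01 ∈ T.P01) ∧
      ∃ (p : KK) (h₂ : FF) (ω10 ω01 : KK), p ∈ T.PK ∧ (m : ℤ) • ω10 = 0 ∧
        (m : ℤ) • ω01 = 0 ∧ T.Nβ u₂ = T.iF p + (m : ℤ) • h₂ ∧
        h₂ - T.iF ω10 ∈ T.P10 ∧ h₂ - T.iF ω01 ∈ T.P01 := by
  obtain ⟨κ, G, u₂, hκ, hu₂, h20, h11, h02, γ₂, γ₂', h₂, h₂', hγ₂, hγ₂', hvγ₂, hvγ₂', -, -, -, -,
    hN, hN'⟩ := T.toVertTable.exists_one_unit hm hqm f γ γ' hγ hγ' h h' hα hβ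
  exact ⟨κ, G, u₂, hκ, hu₂, h20, h11, h02,
    T.exists_roots _ γ₂ hγ₂ hvγ₂ h₂ hN (T.R0α10 _ h20 h11) (T.R0α01 _ h02),
    T.exists_roots _ γ₂' hγ₂' hvγ₂' h₂' hN' (T.R0β10 _ h20) (T.R0β01 _ h11 h02)⟩

end VertTableR

end Fermat.Agent.H87.SS2
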