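import Fermat.Agent.H87.SS2.Val3Ord
import Fermat.Agent.H87.SS2.S1S2Mul
import Fermat.Agent.H37.SS2.WeakApprox

/-!
# P-SS2 (S36), TABLE: the table of the three vertical valuations from `Val3Data` (helper87)

`val3Table` : the `MulVertTable Kˣ Fˣ Eˣ q m` attached to `Val3Data` (helper11), the norm
hypotheses `Val3NormHyps` and the base hypotheses `Val3Base`.

`val3_exists_one_unit` : the conclusion of steps S1-S2 (`MulVertTable.exists_one_unit`) in
concrete terms.
-/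

set_option autoImplicit false
set_option linter.style.haveILetI false

namespace Fermat.Agent.H87.SS2

open Fermat.Agent.H11.SS2 Fermat.Agent.H88.KLB

/-- The hypotheses on the base of the table: constants `K`, the two vertical valuations `O₁`,
`O₂` of `F` (unramified over the discrete valuation subring `OK` of `K`, uniformiser `q`), the
original constants `K0`, and `m`-th roots of unity. -/
structure Val3Base {K F E : Type} [Field K] [Field F] [Field E] (iF : K →+* F)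
    (α β : F →+* E) (OK : ValuationSubring K) (O₁ O₂ : ValuationSubring F) (q m : ℕ)
    (K0 : Subgroup Kˣ) : Prop where
  αβ : ∀ c, α (iF c) = β (iF c)
  pirK : IsPrincipalIdealRing OK
  pir₁ : IsPrincipalIdealRing O₁
  pir₂ : IsPrincipalIdealRing O₂
  unifK : DKUnif OK (q : K)
  unif₁ : DKUnif O₁ (q : F)
  unif₂ : DKUnif O₂ (q : F)
  comap₁ : O₁.comap iF = OK
  comap₂ : O₂.comap iF = OK
  q_mem : ∃ u : Kˣ, u ∈ K0 ∧ (u : K) = (q : K)
  const : ∀ c : Kˣ, c ∈ K0 → VUnit OK (c : K) →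
    ∃ d : Kˣ, VUnit OK (d : K) ∧ (c : K) / (d : K) ^ m - 1 ∈ OK.nonunits
  m_pos : 0 < m
  roots : ∃ ζ : K, IsPrimitiveRoot ζ m

section lemmas

variable {K L : Type} [Field K] [Field L]

/-- The order of `φ y` at `W` in terms of the order of `y` at `O = W.comap φ`, when
`φ π = unit · t ^ e`. -/
theorem ordAt_map (φ : K →+* L) {W : ValuationSubring L} {O : ValuationSubring K}
    (hWO : W.comap φ = O) {π : K} {t : L} (dO : DiscAt O.valuation π)
    (dW : DiscAt W.valuation t) {e : ℤ} (he : VUnit W (φ π / t ^ e)) {y : K} (hy : y ≠ 0) :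
    ordAt W t (φ y) = e * ordAt O π y := by
  subst hWO
  have hφy : φ y ≠ 0 := (map_ne_zero φ).mpr hy
  rw [ordAt_eq_iff dW hφy]
  have h1 : VUnit (W.comap φ) (y / π ^ ordAt (W.comap φ) π y) := vUnit_div_ordAt dO hy
  rw [vUnit_comap_iff, map_div₀, map_zpow₀] at h1
  have h2 := vUnit_mul h1 (vUnit_zpow he (ordAt (W.comap φ) π y))
  have hπ : φ π ≠ 0 := (map_ne_zero φ).mpr dO.1
  have e1 : φ y / φ π ^ ordAt (W.comap φ) π y * (φ π / t ^ e) ^ ordAt (W.comap φ) π y =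
      φ y / t ^ (e * ordAt (W.comap φ) π y) := by
    rw [div_zpow, ← zpow_mul, div_mul_div_comm, mul_comm (φ y), mul_div_mul_left _ _
      (zpow_ne_zero _ hπ)]
  rw [e1] at h2
  exact h2

theorem ordAt_map_one (φ : K →+* L) {W : ValuationSubring L} {O : ValuationSubring K}
    (hWO : W.comap φ = O) {π : K} {t : L} (dO : DiscAt O.valuation π)
    (dW : DiscAt W.valuation t) (he : φ π = t) {y : K} (hy : y ≠ 0) :
    ordAt W t (φ y) = ordAt O π y := by
  have := ordAt_map φ hWO dO dW (e := 1) (by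
    rw [he, zpow_one, div_self dW.1]
    exact vUnit_one) hy
  rw [one_mul] at this
  exact this

theorem map_sub_one_mem (φ : K →+* L) {W : ValuationSubring L} {O : ValuationSubring K}
    (hWO : W.comap φ = O) {y : K} : φ y - 1 ∈ W.nonunits ↔ y - 1 ∈ O.nonunits := by
  rw [← hWO, mem_nonunits_comap_iff, map_sub, map_one]

theorem map_mem_nonunits (φ : K →+* L) {W : ValuationSubring L} {O : ValuationSubring K}
    (hWO : W.comap φ = O) {y : K} : φ y ∈ W.nonunits ↔ y ∈ O.nonunits := by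
  rw [← hWO, mem_nonunits_comap_iff]

theorem map_valuation_eq_one (φ : K →+* L) {W : ValuationSubring L} {O : ValuationSubring K}
    (hWO : W.comap φ = O) {y : K} : W.valuation (φ y) = 1 ↔ O.valuation y = 1 := by
  rw [← hWO, valuation_comap_eq_one_iff]

/-- Residue degree one: a unit of `W` is congruent to the image of a unit of `O`. -/
theorem exists_unit_of_resOne (φ : K →+* L) {W : ValuationSubring L} {O : ValuationSubring K}
    (hWO : W.comap φ = O) (hres : ResOneAlong φ O W) {x : L} (hx : W.valuation x = 1) :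
    ∃ a : K, O.valuation a = 1 ∧ x - φ a ∈ W.nonunits ∧ x / φ a - 1 ∈ W.nonunits := by
  obtain ⟨a, -, ha⟩ := hres x ((W.valuation_le_one_iff x).mp hx.le)
  have h1 : W.valuation (φ a) = 1 := by
    refine valuation_eq_one_of_sub_mem hx ?_
    have := nonunits_neg_mem ha
    rwa [neg_sub] at this
  exact ⟨a, (map_valuation_eq_one φ hWO).mp h1, ha, div_sub_one_mem h1 ha⟩

/-- Roots of unity modulo the maximal ideal lift to roots of unity of the constants. -/
theorem exists_root_of_pow_sub_one_mem (φ : K →+* L) (O : ValuationSubring L) {m : ℕ}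
    {ζ : K} (hζ : IsPrimitiveRoot ζ m) (hm : 0 < m) {y : L} (hy : y ^ m - 1 ∈ O.nonunits) :
    ∃ ω : K, ω ^ m = 1 ∧ y - φ ω ∈ O.nonunits := by
  classical
  haveI : NeZero m := ⟨hm.ne'⟩
  have hζ' : IsPrimitiveRoot (φ ζ) m := hζ.map_of_injective φ.injective
  have h1 := hζ'.pow_sub_pow_eq_prod_sub_mul y 1 hm
  simp only [one_pow, mul_one] at h1
  have hy1 : O.valuation y = 1 := by
    have h2 : O.valuation (y ^ m) = 1 := valuation_eq_one_of_sub_one_mem hy
    rw [map_pow] at h2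
    exact (pow_eq_one_iff_of_nonneg zero_le hm.ne').mp h2
  rw [h1, mem_nonunits_iff_valuation, map_prod] at hy
  by_contra hcon
  push Not at hcon
  have h3 : ∀ μ ∈ Polynomial.nthRootsFinset m (1 : L), O.valuation (y - μ) = 1 := by
    intro μ hμ
    rw [Polynomial.mem_nthRootsFinset hm] at hμ
    obtain ⟨i, -, rfl⟩ := hζ'.eq_pow_of_pow_eq_one hμ
    have hω : (ζ ^ i) ^ m = 1 := by rw [← pow_mul, mul_comm, pow_mul, hζ.pow_eq_one, one_pow]
    have h4 := hcon (ζ ^ i) hω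
    rw [map_pow, mem_nonunits_iff_valuation, not_lt] at h4
    refine le_antisymm ?_ h4
    have hμ1 : O.valuation (φ ζ ^ i) = 1 := by
      rw [map_pow]
      have : O.valuation (φ ζ) ^ m = 1 := by rw [← map_pow, hζ'.pow_eq_one, map_one]
      rw [(pow_eq_one_iff_of_nonneg zero_le hm.ne').mp this, one_pow]
    calc O.valuation (y - φ ζ ^ i) ≤ max (O.valuation y) (O.valuation (φ ζ ^ i)) :=
          Valuation.map_sub _ _ _
      _ = 1 := by rw [hy1, hμ1, max_self]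
  rw [Finset.prod_eq_one h3] at hy
  exact lt_irrefl _ hy


/-- Weak approximation of units at three distinct discrete valuation subrings. -/
theorem exists_approx_three {E : Type} [Field E] (V₁ V₂ V₃ : ValuationSubring E)
    (h12 : V₁ ≠ V₂) (h13 : V₁ ≠ V₃) (h23 : V₂ ≠ V₃)
    (hp₁ : IsPrincipalIdealRing V₁) (hp₂ : IsPrincipalIdealRing V₂)
    (hp₃ : IsPrincipalIdealRing V₃) {t₁ t₂ t₃ : E} (ht₁ : DKUnif V₁ t₁) (ht₂ : DKUnif V₂ t₂)
    (ht₃ : DKUnif V₃ t₃) (a₁ a₂ a₃ : E) (ha₁ : V₁.valuation a₁ = 1) (ha₂ : V₂.valuation a₂ = 1)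
    (ha₃ : V₃.valuation a₃ = 1) :
    ∃ g : E, g ≠ 0 ∧ g / a₁ - 1 ∈ V₁.nonunits ∧ g / a₂ - 1 ∈ V₂.nonunits ∧
      g / a₃ - 1 ∈ V₃.nonunits := by
  let V : Fin 3 → ValuationSubring E := ![V₁, V₂, V₃]
  let t : Fin 3 → E := ![t₁, t₂, t₃]
  let a : Fin 3 → E := ![a₁, a₂, a₃]
  have hV : Function.Injective V := by
    intro i j h
    fin_cases i <;> fin_cases j <;> first | rfl | (exfalso; simp [V] at h; first | exact h12 h | exact h13 h | exact h23 h | exact h12 h.symm | exact h13 h.symm | exact h23 h.symm)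
  have hdvr : ∀ i, IsDiscreteValuationRing (V i) := by
    intro i
    fin_cases i
    · exact isDVR_of_dkUnif hp₁ ht₁
    · exact isDVR_of_dkUnif hp₂ ht₂
    · exact isDVR_of_dkUnif hp₃ ht₃
  have ht0 : ∀ i, t i ≠ 0 := by
    intro i
    fin_cases i
    · exact ht₁.1
    · exact ht₂.1
    · exact ht₃.1
  have htV : ∀ i, (V i).valuation (t i) < 1 := by
    intro i
    fin_cases i
    · exact mem_nonunits_iff_valuation.mp ht₁.2.1
    · exact mem_nonunits_iff_valuation.mp ht₂.2.1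
    · exact mem_nonunits_iff_valuation.mp ht₃.2.1
  have haV : ∀ i, (V i).valuation (a i) = 1 := by
    intro i
    fin_cases i
    · exact ha₁
    · exact ha₂
    · exact ha₃
  obtain ⟨g, hg⟩ := Fermat.Agent.H37.SS2.weakApprox_dvr_unit V hV hdvr t ht0 htV a haV 0
  have key : ∀ i, g / a i - 1 ∈ (V i).nonunits := by
    intro i
    obtain ⟨-, c, hc, hgc⟩ := hg i
    refine div_sub_one_mem (haV i) ?_
    rw [hgc, zero_add, pow_one, mem_nonunits_iff_valuation, map_mul]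
    exact mul_lt_one_of_lt_of_le (htV i) (((V i).valuation_le_one_iff c).mpr hc)
  refine ⟨g, ?_, key 0, key 1, key 2⟩
  rintro rfl
  have := (hg 0).1
  simp at this


section units

variable {F E : Type} [Field F] [Field E]

theorem valuation_eq_one_of_mem_pug {W : ValuationSubring E} {x : Eˣ}
    (hx : x ∈ W.principalUnitGroup) : W.valuation (x : E) = 1 :=
  valuation_eq_one_of_sub_one_mem ((mem_principalUnitGroup_iff' x).mp hx)

theorem mem_pug_div_iff {W : ValuationSubring E} (x y : Eˣ) :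
    x / y ∈ W.principalUnitGroup ↔ (x : E) / (y : E) - 1 ∈ W.nonunits := by
  rw [mem_principalUnitGroup_iff', Units.val_div_eq_div_val]

/-- `RInsep` in group form (fields `R2`, `R3` of the table). -/
theorem rInsep_units {φ : F →+* E} {N : E →* F} {W : ValuationSubring E} {q : ℕ}
    (h : RInsep φ N W q) (x : Eˣ) (hx : W.valuation (x : E) = 1) :
    x ^ q / Units.map (φ : F →* E) (Units.map N x) ∈ W.principalUnitGroup := by
  rw [mem_pug_div_iff, Units.val_pow_eq_pow_val]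
  have h1 := h (x : E) ((W.valuation_le_one_iff _).mp hx.le)
  have hxq : W.valuation ((x : E) ^ q) = 1 := by rw [map_pow, hx, one_pow]
  have h3 : (x : E) ^ q - φ (N x) ∈ W.nonunits := by
    have := nonunits_neg_mem h1
    rwa [neg_sub] at this
  have h2 : W.valuation (φ (N x)) = 1 := valuation_eq_one_of_sub_mem hxq h1
  exact div_sub_one_mem h2 h3

/-- Residue degree one in group form (fields `F11`, `F20` of the table). -/
theorem resOne_units {φ : F →+* E} {W : ValuationSubring E} {O : ValuationSubring F}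
    (hWO : W.comap φ = O) (hres : ResOneAlong φ O W) (x : Eˣ) (hx : W.valuation (x : E) = 1) :
    ∃ y : Fˣ, O.valuation (y : F) = 1 ∧ x / Units.map (φ : F →* E) y ∈ W.principalUnitGroup := by
  obtain ⟨a, ha1, -, ha3⟩ := exists_unit_of_resOne φ hWO hres hx
  have ha0 : a ≠ 0 := by
    rintro rfl
    simp at ha1
  exact ⟨Units.mk0 a ha0, ha1, (mem_pug_div_iff _ _).mpr ha3⟩

/-- Transfer of congruences (field `TR` of the table). -/
theorem transfer_units {φ : F →+* E} {W W' : ValuationSubring E} {O : ValuationSubring F}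
    (hWO : W.comap φ = O) (hWO' : W'.comap φ = O) (y : Fˣ)
    (h : Units.map (φ : F →* E) y ∈ W.principalUnitGroup) :
    Units.map (φ : F →* E) y ∈ W'.principalUnitGroup := by
  rw [mem_principalUnitGroup_iff'] at h ⊢
  exact (map_sub_one_mem φ hWO').mpr ((map_sub_one_mem φ hWO).mp h)

/-- `R1Two` in group form (field `R1` of the table). -/
theorem r1_units {φ : F →+* E} {N : E →* F} {O : ValuationSubring F}
    {W₁ W₂ : ValuationSubring E} {q : ℕ} (hq : 1 ≤ q) (hW₁ : W₁.comap φ = O)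
    (hW₂ : W₂.comap φ = O) (hres : ResOneAlong φ O W₁) (h : R1Two φ N O W₁ W₂ 1 (q - 1))
    (x : Eˣ) (y : Fˣ) (hx : W₁.valuation (x : E) = 1) (hy : O.valuation (y : F) = 1)
    (hxy : x / Units.map (φ : F →* E) y ∈ W₂.principalUnitGroup) :
    Units.map (φ : F →* E) (Units.map N x) / x / Units.map (φ : F →* E) y ^ ((q : ℤ) - 1) ∈
      W₁.principalUnitGroup := by
  obtain ⟨a, ha1, ha2, -⟩ := exists_unit_of_resOne φ hW₁ hres hx
  have hy₁ : W₁.valuation (φ (y : F)) = 1 := (map_valuation_eq_one φ hW₁).mpr hy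
  have hy₂ : W₂.valuation (φ (y : F)) = 1 := (map_valuation_eq_one φ hW₂).mpr hy
  have hxy' : (x : E) - φ (y : F) ∈ W₂.nonunits :=
    sub_mem_of_div_sub_one_mem hy₂ ((mem_pug_div_iff _ _).mp hxy)
  have haO : a ∈ O := (O.valuation_le_one_iff a).mp ha1.le
  have hyO : (y : F) ∈ O := (O.valuation_le_one_iff _).mp hy.le
  have h1 := h (x : E) a (y : F) haO hyO ha2 hxy'
  rw [pow_one] at h1
  have h2 : φ (N (x : E)) - φ a * φ (y : F) ^ (q - 1) ∈ W₁.nonunits := by
    have := (map_mem_nonunits φ hW₁).mpr h1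
    rwa [map_sub, map_mul, map_pow] at this
  have hyq : φ (y : F) ^ (q - 1) ∈ W₁ :=
    W₁.pow_mem ((W₁.valuation_le_one_iff _).mp hy₁.le) _
  have h3 : φ (N (x : E)) - (x : E) * φ (y : F) ^ (q - 1) ∈ W₁.nonunits := by
    have h4 : (φ a - (x : E)) * φ (y : F) ^ (q - 1) ∈ W₁.nonunits := by
      refine nonunits_mul_mem ?_ hyq
      have := nonunits_neg_mem ha2
      rwa [neg_sub] at this
    have := nonunits_add_mem h2 h4
    have e : φ (N (x : E)) - φ a * φ (y : F) ^ (q - 1) + (φ a - (x : E)) * φ (y : F) ^ (q - 1) =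
        φ (N (x : E)) - (x : E) * φ (y : F) ^ (q - 1) := by ring
    rwa [e] at this
  have h5 : W₁.valuation ((x : E) * φ (y : F) ^ (q - 1)) = 1 := by
    rw [map_mul, map_pow, hx, hy₁, one_pow, one_mul]
  have h6 := div_sub_one_mem h5 h3
  rw [mem_principalUnitGroup_iff']
  have e : ((q : ℤ) - 1) = ((q - 1 : ℕ) : ℤ) := by rw [Nat.cast_sub hq, Nat.cast_one]
  rw [e, zpow_natCast]
  have e2 : ((Units.map (φ : F →* E) (Units.map N x) / x / Units.map (φ : F →* E) y ^ (q - 1) :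
      Eˣ) : E) = φ (N (x : E)) / ((x : E) * φ (y : F) ^ (q - 1)) := by
    simp [div_div]
  rw [e2]
  exact h6

/-- Roots of unity in group form (fields `roots10`, `roots01` of the table). -/
theorem roots_units {K : Type} [Field K] (φ : K →+* F) (O : ValuationSubring F) {m : ℕ}
    {ζ : K} (hζ : IsPrimitiveRoot ζ m) (hm : 0 < m) (y : Fˣ)
    (hy : y ^ m ∈ O.principalUnitGroup) :
    ∃ ω : Kˣ, ω ^ m = 1 ∧ y / Units.map (φ : K →* F) ω ∈ O.principalUnitGroup := by
  rw [mem_principalUnitGroup_iff'] at hy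
  obtain ⟨ω, hω, h⟩ := exists_root_of_pow_sub_one_mem φ O hζ hm (y := (y : F)) (by simpa using hy)
  have hω0 : ω ≠ 0 := by
    rintro rfl
    rw [zero_pow hm.ne'] at hω
    exact zero_ne_one hω
  refine ⟨Units.mk0 ω hω0, Units.ext (by simpa using hω), ?_⟩
  rw [mem_pug_div_iff]
  have h1 : O.valuation (φ ω) = 1 := by
    have : O.valuation (φ ω) ^ m = 1 := by rw [← map_pow, ← map_pow, hω, map_one, map_one]
    exact (pow_eq_one_iff_of_nonneg zero_le hm.ne').mp this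
  exact div_sub_one_mem h1 h

end units

end lemmas


section table

variable {K F E : Type} [Field K] [Field F] [Field E] {iF : K →+* F} {α β : F →+* E}
  {Nα Nβ : E →* F} {OK : ValuationSubring K} {O₁ O₂ : ValuationSubring F}
  {V₂₀ V₁₁ V₀₂ : ValuationSubring E} {q m : ℕ} {K0 : Subgroup Kˣ} {Y₁ : F} {Z : E}

theorem Val3Base.q_pos (hB : Val3Base iF α β OK O₁ O₂ q m K0) : 1 ≤ q := by
  rcases Nat.eq_zero_or_pos q with h | h
  · exact absurd (by rw [h, Nat.cast_zero]) hB.unifK.1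
  · exact h

/-- the `E`-side: `q` as a uniformiser of `V₁₁` up to `Z ^ (q - 1)`, integer exponent. -/
theorem ram₁₁_zpow (hB : Val3Base iF α β OK O₁ O₂ q m K0)
    (hD : Val3Data α β O₁ O₂ V₂₀ V₁₁ V₀₂ q Y₁ Z) :
    VUnit V₁₁ (α (q : F) / Z ^ ((q : ℤ) - 1)) := by
  have h := hD.ram₁₁
  have e : ((q : ℤ) - 1) = ((q - 1 : ℕ) : ℤ) := by
    rw [Nat.cast_sub hB.q_pos, Nat.cast_one]
  rw [e, zpow_natCast, map_natCast]
  exact h

variable (hB : Val3Base iF α β OK O₁ O₂ q m K0)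
  (hD : Val3Data α β O₁ O₂ V₂₀ V₁₁ V₀₂ q Y₁ Z)
  (hN : Val3NormHyps α β Nα Nβ O₁ O₂ V₂₀ V₁₁ V₀₂ q Z)

/-- **TABLE**: the table of the three vertical valuations attached to `Val3Data`. -/
noncomputable def val3Table : MulVertTable Kˣ Fˣ Eˣ q m :=
  have dK : DiscAt OK.valuation (q : K) := discAt_of_dkUnif hB.pirK hB.unifK
  have d₁ : DiscAt O₁.valuation (q : F) := discAt_of_dkUnif hB.pir₁ hB.unif₁
  have d₂ : DiscAt O₂.valuation (q : F) := discAt_of_dkUnif hB.pir₂ hB.unif₂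
  have d₂₀ : DiscAt V₂₀.valuation (q : E) := discAt_of_dkUnif hD.pir₂₀ hD.unif₂₀
  have d₁₁ : DiscAt V₁₁.valuation Z := discAt_of_dkUnif hD.pir₁₁ hD.unif₁₁
  have d₀₂ : DiscAt V₀₂.valuation (q : E) := discAt_of_dkUnif hD.pir₀₂ hD.unif₀₂
  { iF := Units.map (iF : K →* F)
    iE := Units.map ((α.comp iF : K →+* E) : K →* E)
    α := Units.map (α : F →* E)
    β := Units.map (β : F →* E)
    Nα := Units.map Nα
    Nβ := Units.map Nβ
    vK := fun c => ordAt OK (q : K) (c : K)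
    v10 := fun y => ordAt O₁ (q : F) (y : F)
    v01 := fun y => ordAt O₂ (q : F) (y : F)
    v20 := fun x => ordAt V₂₀ (q : E) (x : E)
    v11 := fun x => ordAt V₁₁ Z (x : E)
    v02 := fun x => ordAt V₀₂ (q : E) (x : E)
    vK_mul := fun x y => ordAt_mul dK x.ne_zero y.ne_zero
    v10_mul := fun x y => ordAt_mul d₁ x.ne_zero y.ne_zero
    v01_mul := fun x y => ordAt_mul d₂ x.ne_zero y.ne_zero
    v20_mul := fun x y => ordAt_mul d₂₀ x.ne_zero y.ne_zero
    v11_mul := fun x y => ordAt_mul d₁₁ x.ne_zero y.ne_zero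
    v02_mul := fun x y => ordAt_mul d₀₂ x.ne_zero y.ne_zero
    PK := OK.principalUnitGroup
    P10 := O₁.principalUnitGroup
    P01 := O₂.principalUnitGroup
    P20 := V₂₀.principalUnitGroup
    P11 := V₁₁.principalUnitGroup
    P02 := V₀₂.principalUnitGroup
    K0 := K0
    α_iF := fun c => Units.ext rfl
    β_iF := fun c => Units.ext (hB.αβ (c : K)).symm
    Nα_iE := fun c => Units.ext (hN.normα (iF (c : K)))
    Nβ_iE := fun c => Units.ext (by
      show Nβ (α (iF (c : K))) = iF (c : K) ^ q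
      rw [hB.αβ, hN.normβ])
    v10_Nα := fun x => by
      have hx : Nα (x : E) ≠ 0 := (Units.map Nα x).ne_zero
      show ordAt O₁ (q : F) (Nα (x : E)) = _
      rw [ordAt_eq_iff d₁ hx]
      have := hN.vnα₁ (x : E) x.ne_zero _ _ (vUnit_div_ordAt d₂₀ x.ne_zero)
        (vUnit_div_ordAt d₁₁ x.ne_zero)
      simpa using this
    v01_Nα := fun x => by
      have hx : Nα (x : E) ≠ 0 := (Units.map Nα x).ne_zero
      show ordAt O₂ (q : F) (Nα (x : E)) = _
      rw [ordAt_eq_iff d₂ hx]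
      exact hN.vnα₂ (x : E) x.ne_zero _ (vUnit_div_ordAt d₀₂ x.ne_zero)
    v10_Nβ := fun x => by
      have hx : Nβ (x : E) ≠ 0 := (Units.map Nβ x).ne_zero
      show ordAt O₁ (q : F) (Nβ (x : E)) = _
      rw [ordAt_eq_iff d₁ hx]
      exact hN.vnβ₁ (x : E) x.ne_zero _ (vUnit_div_ordAt d₂₀ x.ne_zero)
    v01_Nβ := fun x => by
      have hx : Nβ (x : E) ≠ 0 := (Units.map Nβ x).ne_zero
      show ordAt O₂ (q : F) (Nβ (x : E)) = _
      rw [ordAt_eq_iff d₂ hx]
      have := hN.vnβ₂ (x : E) x.ne_zero _ _ (vUnit_div_ordAt d₁₁ x.ne_zero)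
        (vUnit_div_ordAt d₀₂ x.ne_zero)
      simpa using this
    v10_iF := fun c => ordAt_map_one iF hB.comap₁ dK d₁ (map_natCast iF q) c.ne_zero
    v01_iF := fun c => ordAt_map_one iF hB.comap₂ dK d₂ (map_natCast iF q) c.ne_zero
    v20_α := fun y => ordAt_map_one α hD.comap₂₀α d₁ d₂₀ (map_natCast α q) y.ne_zero
    v11_α := fun y => ordAt_map α hD.comap₁₁α d₁ d₁₁ (ram₁₁_zpow hB hD) y.ne_zero
    v02_α := fun y => ordAt_map_one α hD.comap₀₂α d₂ d₀₂ (map_natCast α q) y.ne_zero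
    v20_β := fun y => ordAt_map_one β hD.comap₂₀β d₁ d₂₀ (map_natCast β q) y.ne_zero
    P20_le := fun x hx =>
      ordAt_eq_zero_of_sub_one_mem d₂₀ ((mem_principalUnitGroup_iff' x).mp hx)
    P11_le := fun x hx =>
      ordAt_eq_zero_of_sub_one_mem d₁₁ ((mem_principalUnitGroup_iff' x).mp hx)
    P02_le := fun x hx =>
      ordAt_eq_zero_of_sub_one_mem d₀₂ ((mem_principalUnitGroup_iff' x).mp hx)
    iE_PK := fun c hc => by
      have h0 : (c : K) - 1 ∈ OK.nonunits := (mem_principalUnitGroup_iff' c).mp hc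
      have h1 : iF (c : K) - 1 ∈ O₁.nonunits := (map_sub_one_mem iF hB.comap₁).mpr h0
      have h2 : iF (c : K) - 1 ∈ O₂.nonunits := (map_sub_one_mem iF hB.comap₂).mpr h0
      exact ⟨(mem_principalUnitGroup_iff' _).mpr ((map_sub_one_mem α hD.comap₂₀α).mpr h1),
        (mem_principalUnitGroup_iff' _).mpr ((map_sub_one_mem α hD.comap₁₁α).mpr h1),
        (mem_principalUnitGroup_iff' _).mpr ((map_sub_one_mem α hD.comap₀₂α).mpr h2)⟩
    iF_PK := fun c hc => by
      have h0 : (c : K) - 1 ∈ OK.nonunits := (mem_principalUnitGroup_iff' c).mp hc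
      exact ⟨(mem_principalUnitGroup_iff' _).mpr ((map_sub_one_mem iF hB.comap₁).mpr h0),
        (mem_principalUnitGroup_iff' _).mpr ((map_sub_one_mem iF hB.comap₂).mpr h0)⟩
    ϖ := Classical.choose hB.q_mem
    ϖ_mem := (Classical.choose_spec hB.q_mem).1
    vK_ϖ := by
      show ordAt OK (q : K) ((Classical.choose hB.q_mem : Kˣ) : K) = 1
      rw [(Classical.choose_spec hB.q_mem).2]
      exact ordAt_self dK
    Z := Units.mk0 Z hD.unif₁₁.1
    Y := Units.mk0 (α Y₁) hD.Y₀₂.1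
    v20_Z := (ordAt_eq_zero_iff d₂₀ hD.unif₁₁.1).mpr ((vUnit_iff_valuation hD.unif₁₁.1).mp hD.Z₂₀)
    v11_Z := ordAt_self d₁₁
    v02_Z := (ordAt_eq_zero_iff d₀₂ hD.unif₁₁.1).mpr ((vUnit_iff_valuation hD.unif₁₁.1).mp hD.Z₀₂)
    v20_Y := (ordAt_eq_zero_iff d₂₀ hD.Y₀₂.1).mpr ((vUnit_iff_valuation hD.Y₀₂.1).mp hD.Y₂₀)
    v11_Y := (ordAt_eq_zero_iff d₁₁ hD.Y₀₂.1).mpr ((vUnit_iff_valuation hD.Y₀₂.1).mp hD.Y₁₁)
    v02_Y := ordAt_eq_of_valuation d₀₂ (by
      rw [zpow_one]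
      exact d₀₂.val_eq_of_isUniformiser (presents_valuation V₀₂) hD.Y₀₂)
    R2 := fun x hx => rInsep_units hN.r2 x ((ordAt_eq_zero_iff d₀₂ x.ne_zero).mp hx)
    R3 := fun x hx => rInsep_units hN.r3 x ((ordAt_eq_zero_iff d₂₀ x.ne_zero).mp hx)
    R1 := fun x y hx _ hy hxy =>
      r1_units hB.q_pos hD.comap₂₀α hD.comap₁₁α hD.res₂₀α hN.r1 x y
        ((ordAt_eq_zero_iff d₂₀ x.ne_zero).mp hx) ((ordAt_eq_zero_iff d₁ y.ne_zero).mp hy) hxy
    F11 := fun x hx => by
      obtain ⟨y, hy, h⟩ := resOne_units hD.comap₁₁α hD.res₁₁α x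
        ((ordAt_eq_zero_iff d₁₁ x.ne_zero).mp hx)
      exact ⟨y, (ordAt_eq_zero_iff d₁ y.ne_zero).mpr hy, h⟩
    F20 := fun x hx => by
      obtain ⟨y, hy, h⟩ := resOne_units hD.comap₂₀α hD.res₂₀α x
        ((ordAt_eq_zero_iff d₂₀ x.ne_zero).mp hx)
      exact ⟨y, (ordAt_eq_zero_iff d₁ y.ne_zero).mpr hy, h⟩
    TR := fun y _ h => transfer_units hD.comap₂₀α hD.comap₁₁α y h
    approx := fun a20 a11 a02 h20 h11 h02 => by
      obtain ⟨g, hg0, h1, h2, h3⟩ := exists_approx_three V₂₀ V₁₁ V₀₂ hD.ne₁ hD.ne₂ hD.ne₃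
        hD.pir₂₀ hD.pir₁₁ hD.pir₀₂ hD.unif₂₀ hD.unif₁₁ hD.unif₀₂ (a20 : E) (a11 : E) (a02 : E)
        ((ordAt_eq_zero_iff d₂₀ a20.ne_zero).mp h20) ((ordAt_eq_zero_iff d₁₁ a11.ne_zero).mp h11)
        ((ordAt_eq_zero_iff d₀₂ a02.ne_zero).mp h02)
      exact ⟨Units.mk0 g hg0, (mem_pug_div_iff _ _).mpr h1,
        (mem_pug_div_iff _ _).mpr h2, (mem_pug_div_iff _ _).mpr h3⟩
    const := fun c hc hv => by
      obtain ⟨d, hd, h⟩ := hB.const c hc
        ((vUnit_iff_valuation c.ne_zero).mpr ((ordAt_eq_zero_iff dK c.ne_zero).mp hv))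
      exact ⟨d, (ordAt_eq_zero_iff dK d.ne_zero).mpr ((vUnit_iff_valuation d.ne_zero).mp hd),
        (mem_principalUnitGroup_iff' _).mpr (by simpa using h)⟩
    R0α10 := fun x h1 h2 => (mem_principalUnitGroup_iff' _).mpr
      (hN.r0α₁ (x : E) ((mem_principalUnitGroup_iff' x).mp h1)
        ((mem_principalUnitGroup_iff' x).mp h2))
    R0α01 := fun x h1 => (mem_principalUnitGroup_iff' _).mpr
      (hN.r0α₂ (x : E) ((mem_principalUnitGroup_iff' x).mp h1))
    R0β10 := fun x h1 => (mem_principalUnitGroup_iff' _).mpr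
      (hN.r0β₁ (x : E) ((mem_principalUnitGroup_iff' x).mp h1))
    R0β01 := fun x h1 h2 => (mem_principalUnitGroup_iff' _).mpr
      (hN.r0β₂ (x : E) ((mem_principalUnitGroup_iff' x).mp h1)
        ((mem_principalUnitGroup_iff' x).mp h2))
    roots10 := fun y hy => by
      obtain ⟨ζ, hζ⟩ := hB.roots
      exact roots_units iF O₁ hζ hB.m_pos y hy
    roots01 := fun y hy => by
      obtain ⟨ζ, hζ⟩ := hB.roots
      exact roots_units iF O₂ hζ hB.m_pos y hy }


@[simp] theorem val3Table_iF : (val3Table hB hD hN).iF = Units.map (iF : K →* F) := rfl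
@[simp] theorem val3Table_iE :
    (val3Table hB hD hN).iE = Units.map ((α.comp iF : K →+* E) : K →* E) := rfl
@[simp] theorem val3Table_α : (val3Table hB hD hN).α = Units.map (α : F →* E) := rfl
@[simp] theorem val3Table_β : (val3Table hB hD hN).β = Units.map (β : F →* E) := rfl
@[simp] theorem val3Table_Nα : (val3Table hB hD hN).Nα = Units.map Nα := rfl
@[simp] theorem val3Table_Nβ : (val3Table hB hD hN).Nβ = Units.map Nβ := rfl
@[simp] theorem val3Table_PK : (val3Table hB hD hN).PK = OK.principalUnitGroup := rfl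
@[simp] theorem val3Table_P10 : (val3Table hB hD hN).P10 = O₁.principalUnitGroup := rfl
@[simp] theorem val3Table_P01 : (val3Table hB hD hN).P01 = O₂.principalUnitGroup := rfl
@[simp] theorem val3Table_P20 : (val3Table hB hD hN).P20 = V₂₀.principalUnitGroup := rfl
@[simp] theorem val3Table_P11 : (val3Table hB hD hN).P11 = V₁₁.principalUnitGroup := rfl
@[simp] theorem val3Table_P02 : (val3Table hB hD hN).P02 = V₀₂.principalUnitGroup := rfl
@[simp] theorem val3Table_K0 : (val3Table hB hD hN).K0 = K0 := rfl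
theorem val3Table_vK (c : Kˣ) : (val3Table hB hD hN).vK c = ordAt OK (q : K) (c : K) := rfl
theorem val3Table_v10 (y : Fˣ) : (val3Table hB hD hN).v10 y = ordAt O₁ (q : F) (y : F) := rfl
theorem val3Table_v01 (y : Fˣ) : (val3Table hB hD hN).v01 y = ordAt O₂ (q : F) (y : F) := rfl
theorem val3Table_v20 (x : Eˣ) : (val3Table hB hD hN).v20 x = ordAt V₂₀ (q : E) (x : E) := rfl
theorem val3Table_v11 (x : Eˣ) : (val3Table hB hD hN).v11 x = ordAt V₁₁ Z (x : E) := rfl
theorem val3Table_v02 (x : Eˣ) : (val3Table hB hD hN).v02 x = ordAt V₀₂ (q : E) (x : E) := rfl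

/-- Translation of the conclusion about a norm into field language. -/
theorem norm_concl_field (N : E →* F) (u₂ : Eˣ)
    (h : ∃ (p : Kˣ) (h₂ : Fˣ) (ω10 ω01 : Kˣ), p ∈ OK.principalUnitGroup ∧ ω10 ^ m = 1 ∧
      ω01 ^ m = 1 ∧ Units.map N u₂ = Units.map (iF : K →* F) p * h₂ ^ m ∧
      h₂ / Units.map (iF : K →* F) ω10 ∈ O₁.principalUnitGroup ∧
      h₂ / Units.map (iF : K →* F) ω01 ∈ O₂.principalUnitGroup) :
    ∃ (p : K) (h₂ : F) (ω10 ω01 : K), p - 1 ∈ OK.nonunits ∧ h₂ ≠ 0 ∧ ω10 ^ m = 1 ∧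
      ω01 ^ m = 1 ∧ N (u₂ : E) = iF p * h₂ ^ m ∧ h₂ / iF ω10 - 1 ∈ O₁.nonunits ∧
      h₂ / iF ω01 - 1 ∈ O₂.nonunits := by
  obtain ⟨p, h₂, ω10, ω01, hp, h10, h01, hN', hh10, hh01⟩ := h
  refine ⟨(p : K), (h₂ : F), (ω10 : K), (ω01 : K), (mem_principalUnitGroup_iff' p).mp hp,
    h₂.ne_zero, ?_, ?_, ?_, (mem_pug_div_iff _ _).mp hh10, (mem_pug_div_iff _ _).mp hh01⟩
  · have := congrArg (fun u : Kˣ => (u : K)) h10
    simpa using this
  · have := congrArg (fun u : Kˣ => (u : K)) h01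
    simpa using this
  · have := congrArg (fun u : Fˣ => (u : F)) hN'
    simpa using this

include hB hD hN in
/-- **Steps S1 + S2 for `Val3Data`**: if the two norms of `f ∈ Eˣ` are constants (of `K0`) times
`m`-th powers, then `u₂ = f ^ ((q + 1) * (q - 1)) * κ * G ^ m` (`κ ∈ K0`, `G ∈ Eˣ`) is a `1`-unit
at the three vertical valuations, and the two norms of `u₂` are `p * h₂ ^ m` with `p` a `1`-unit
constant and `h₂` congruent to `m`-th roots of unity at `O₁` and at `O₂`. -/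
theorem val3_exists_one_unit (hqm : Nat.Coprime q m) (f : Eˣ) (γ γ' : Kˣ) (hγ : γ ∈ K0)
    (hγ' : γ' ∈ K0) (h h' : Fˣ) (hα : Nα (f : E) = iF (γ : K) * (h : F) ^ m)
    (hβ : Nβ (f : E) = iF (γ' : K) * (h' : F) ^ m) :
    ∃ (κ : Kˣ) (G : Eˣ) (u₂ : Eˣ), κ ∈ K0 ∧
      (u₂ : E) = (f : E) ^ ((q + 1) * (q - 1)) * α (iF (κ : K)) * (G : E) ^ m ∧
      (u₂ : E) - 1 ∈ V₂₀.nonunits ∧ (u₂ : E) - 1 ∈ V₁₁.nonunits ∧ (u₂ : E) - 1 ∈ V₀₂.nonunits ∧
      (∃ (p : K) (h₂ : F) (ω10 ω01 : K), p - 1 ∈ OK.nonunits ∧ h₂ ≠ 0 ∧ ω10 ^ m = 1 ∧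
        ω01 ^ m = 1 ∧ Nα (u₂ : E) = iF p * h₂ ^ m ∧ h₂ / iF ω10 - 1 ∈ O₁.nonunits ∧
        h₂ / iF ω01 - 1 ∈ O₂.nonunits) ∧
      ∃ (p : K) (h₂ : F) (ω10 ω01 : K), p - 1 ∈ OK.nonunits ∧ h₂ ≠ 0 ∧ ω10 ^ m = 1 ∧
        ω01 ^ m = 1 ∧ Nβ (u₂ : E) = iF p * h₂ ^ m ∧ h₂ / iF ω10 - 1 ∈ O₁.nonunits ∧
        h₂ / iF ω01 - 1 ∈ O₂.nonunits := by
  obtain ⟨κ, G, u₂, hκ, hu₂, h20, h11, h02, hNα, hNβ⟩ :=
    (val3Table hB hD hN).exists_one_unit hB.q_pos hB.m_pos.ne' hqm f γ γ' hγ hγ' h h'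
      (Units.ext (by simpa using hα)) (Units.ext (by simpa using hβ))
  refine ⟨κ, G, u₂, hκ, ?_, (mem_principalUnitGroup_iff' u₂).mp h20,
    (mem_principalUnitGroup_iff' u₂).mp h11, (mem_principalUnitGroup_iff' u₂).mp h02,
    norm_concl_field Nα u₂ hNα, norm_concl_field Nβ u₂ hNβ⟩
  have := congrArg (fun u : Eˣ => (u : E)) hu₂
  simpa using this

end table

end Fermat.Agent.H87.SS2
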